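/-
Project PT — SHARED GLOBAL DEFINITIONS for PT-G1/G2/G3/X/B (tensor model, helper55's shapes).

For a number field `L` (a TYPE) and a finite set `S` of rational primes, `N = ∏ S`:
* `semiAlg q L = ℚ_[q] ⊗[ℚ] L`, `JL S L = ∏_{q ∈ S} (ℚ_[q] ⊗[ℚ] L)ˣ`   (PT/G1/Plan2.lean)
* `nUnits N L` = the `S`-units `E_{L,S}`                              (PT/G1/Plan.lean)
* `OffS S L`   = the primes of `𝓞 L` not over `S`
* `DivS S L`   = the free abelian group on `OffS S L`
* `CS S L`     = `(J_L × Div_S(L)) / Lˣ`, the `S`-idèle class module, with the action of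
                 `Aut(L) = L ≃ₐ[ℚ] L` (`csRep S L : Rep ℤ (L ≃ₐ[ℚ] L)`).
-/
import Fermat.Agent.PT.G1.Plan2
import Fermat.Agent.PT.X.DivS

set_option autoImplicit false

namespace Fermat.Agent.PT.G

open NumberField IsDedekindDomain Fermat.Agent.PT.G1 Fermat.Agent.PT.X

variable (S : Finset Nat.Primes) (L : Type) [Field L] [NumberField L]

/-- `N = ∏_{q ∈ S} q`. -/
def sProd : ℕ := ∏ q ∈ S, (q : ℕ)

lemma sProd_ne_zero : sProd S ≠ 0 := Finset.prod_ne_zero_iff.2 fun q _ => (q.2).ne_zero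

variable {L}

/-- The image `σ(P)` of a prime of `𝓞 L` under an automorphism of `L`. -/
def primeMap (σ : L ≃ₐ[ℚ] L) (P : HeightOneSpectrum (𝓞 L)) : HeightOneSpectrum (𝓞 L) where
  asIdeal := P.asIdeal.comap (RingOfIntegers.mapRingEquiv (σ.symm : L ≃+* L))
  isPrime := Ideal.comap_isPrime _ _
  ne_bot := by
    intro h
    apply P.ne_bot
    rw [eq_bot_iff]
    intro x hx
    have h1 : RingOfIntegers.mapRingEquiv (σ : L ≃+* L) x ∈
        P.asIdeal.comap (RingOfIntegers.mapRingEquiv (σ.symm : L ≃+* L)) := by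
      rw [Ideal.mem_comap]
      have : RingOfIntegers.mapRingEquiv (σ.symm : L ≃+* L)
          (RingOfIntegers.mapRingEquiv (σ : L ≃+* L) x) = x := by
        ext; simp [RingOfIntegers.mapRingEquiv_apply]
      rwa [this]
    rw [h] at h1
    have h2 : RingOfIntegers.mapRingEquiv (σ : L ≃+* L) x = 0 := h1
    have h3 := (RingOfIntegers.mapRingEquiv (σ : L ≃+* L)).injective
      (h2.trans (map_zero _).symm)
    exact h3

lemma mem_primeMap (σ : L ≃ₐ[ℚ] L) (P : HeightOneSpectrum (𝓞 L)) (x : 𝓞 L) :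
    x ∈ (primeMap σ P).asIdeal ↔
      RingOfIntegers.mapRingEquiv (σ.symm : L ≃+* L) x ∈ P.asIdeal := Iff.rfl

@[simp] lemma primeMap_one (P : HeightOneSpectrum (𝓞 L)) : primeMap (1 : L ≃ₐ[ℚ] L) P = P := by
  apply HeightOneSpectrum.ext
  ext x
  rw [mem_primeMap]
  have : RingOfIntegers.mapRingEquiv (((1 : L ≃ₐ[ℚ] L).symm : L ≃ₐ[ℚ] L) : L ≃+* L) x = x := by
    ext; rfl
  rw [this]

lemma primeMap_mul (σ τ : L ≃ₐ[ℚ] L) (P : HeightOneSpectrum (𝓞 L)) :
    primeMap (σ * τ) P = primeMap σ (primeMap τ P) := by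
  apply HeightOneSpectrum.ext
  ext x
  rw [mem_primeMap, mem_primeMap, mem_primeMap]
  have : RingOfIntegers.mapRingEquiv (((σ * τ).symm : L ≃ₐ[ℚ] L) : L ≃+* L) x =
      RingOfIntegers.mapRingEquiv ((τ.symm : L ≃ₐ[ℚ] L) : L ≃+* L)
        (RingOfIntegers.mapRingEquiv ((σ.symm : L ≃ₐ[ℚ] L) : L ≃+* L) x) := by
    ext; rfl
  rw [this]

/-- `Aut(L)` acts on the primes of `𝓞 L`. -/
def primeEquiv (σ : L ≃ₐ[ℚ] L) : HeightOneSpectrum (𝓞 L) ≃ HeightOneSpectrum (𝓞 L) where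
  toFun := primeMap σ
  invFun := primeMap σ⁻¹
  left_inv P := by rw [← primeMap_mul, inv_mul_cancel, primeMap_one]
  right_inv P := by rw [← primeMap_mul, mul_inv_cancel, primeMap_one]

lemma natCast_mem_primeMap_iff (σ : L ≃ₐ[ℚ] L) (P : HeightOneSpectrum (𝓞 L)) (n : ℕ) :
    (n : 𝓞 L) ∈ (primeMap σ P).asIdeal ↔ (n : 𝓞 L) ∈ P.asIdeal := by
  rw [mem_primeMap, map_natCast]

variable (L)

/-- The primes of `𝓞 L` not over `S`. -/
def OffS : Type := {P : HeightOneSpectrum (𝓞 L) // ((sProd S : ℕ) : 𝓞 L) ∉ P.asIdeal}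

variable {L}

/-- `Aut(L)` acts on the primes of `𝓞 L` not over `S`. -/
def offEquiv (σ : L ≃ₐ[ℚ] L) : OffS S L ≃ OffS S L where
  toFun P := ⟨primeMap σ P.1, fun h => P.2 ((natCast_mem_primeMap_iff σ P.1 _).1 h)⟩
  invFun P := ⟨primeMap σ⁻¹ P.1, fun h => P.2 ((natCast_mem_primeMap_iff σ⁻¹ P.1 _).1 h)⟩
  left_inv P := Subtype.ext ((primeEquiv σ).left_inv P.1)
  right_inv P := Subtype.ext ((primeEquiv σ).right_inv P.1)

@[simp] lemma offEquiv_one : offEquiv S (1 : L ≃ₐ[ℚ] L) = Equiv.refl _ := by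
  apply Equiv.ext
  intro P
  exact Subtype.ext (primeMap_one P.1)

lemma offEquiv_mul (σ τ : L ≃ₐ[ℚ] L) :
    offEquiv S (σ * τ) = (offEquiv S τ).trans (offEquiv S σ) := by
  apply Equiv.ext
  intro P
  exact Subtype.ext (primeMap_mul σ τ P.1)

variable (L)

/-- `Div_S(L)`: the free abelian group on the primes of `𝓞 L` not over `S`. -/
abbrev DivS : Type := OffS S L →₀ ℤ

variable {L}

/-- The action of `Aut(L)` on `Div_S(L)`: `(σ d)(σ P) = d(P)`. -/
noncomputable def divEnd (σ : L ≃ₐ[ℚ] L) : DivS S L →ₗ[ℤ] DivS S L :=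
  (Finsupp.domLCongr (offEquiv S σ) : (OffS S L →₀ ℤ) ≃ₗ[ℤ] (OffS S L →₀ ℤ)).toLinearMap

lemma divEnd_apply (σ : L ≃ₐ[ℚ] L) (d : DivS S L) (P : OffS S L) :
    divEnd S σ d (offEquiv S σ P) = d P := by
  simp [divEnd, Finsupp.domLCongr_apply, Finsupp.domCongr_apply, Finsupp.equivMapDomain_apply]

/-! ### Equivariance of the valuations -/

lemma primeMap_asIdeal_eq_map (σ : L ≃ₐ[ℚ] L) (P : HeightOneSpectrum (𝓞 L)) :
    (primeMap σ P).asIdeal = P.asIdeal.map (RingOfIntegers.mapRingEquiv (σ : L ≃+* L)) := by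
  ext x
  rw [mem_primeMap, Ideal.mem_map_iff_of_surjective _
    (RingOfIntegers.mapRingEquiv (σ : L ≃+* L)).surjective]
  constructor
  · intro h
    refine ⟨_, h, ?_⟩
    ext; simp [RingOfIntegers.mapRingEquiv_apply]
  · rintro ⟨y, hy, rfl⟩
    have : RingOfIntegers.mapRingEquiv ((σ.symm : L ≃ₐ[ℚ] L) : L ≃+* L)
        (RingOfIntegers.mapRingEquiv (σ : L ≃+* L) y) = y := by
      ext; simp [RingOfIntegers.mapRingEquiv_apply]
    rwa [this]

lemma map_mem_primeMap_pow (σ : L ≃ₐ[ℚ] L) (P : HeightOneSpectrum (𝓞 L)) (r : 𝓞 L) (n : ℕ)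
    (h : r ∈ P.asIdeal ^ n) :
    RingOfIntegers.mapRingEquiv (σ : L ≃+* L) r ∈ (primeMap σ P).asIdeal ^ n := by
  rw [primeMap_asIdeal_eq_map, ← Ideal.map_pow]
  exact Ideal.mem_map_of_mem _ h

lemma intValuation_primeMap_le (σ : L ≃ₐ[ℚ] L) (P : HeightOneSpectrum (𝓞 L)) (r : 𝓞 L) :
    (primeMap σ P).intValuation (RingOfIntegers.mapRingEquiv (σ : L ≃+* L) r) ≤
      P.intValuation r := by
  by_cases hr : r = 0
  · simp [hr]
  · rw [P.intValuation_if_neg hr]
    rw [HeightOneSpectrum.intValuation_le_pow_iff_mem]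
    apply map_mem_primeMap_pow
    rw [← HeightOneSpectrum.intValuation_le_pow_iff_mem, P.intValuation_if_neg hr]

lemma intValuation_primeMap (σ : L ≃ₐ[ℚ] L) (P : HeightOneSpectrum (𝓞 L)) (r : 𝓞 L) :
    (primeMap σ P).intValuation (RingOfIntegers.mapRingEquiv (σ : L ≃+* L) r) =
      P.intValuation r := by
  apply le_antisymm (intValuation_primeMap_le σ P r)
  have h := intValuation_primeMap_le σ⁻¹ (primeMap σ P)
    (RingOfIntegers.mapRingEquiv (σ : L ≃+* L) r)
  rw [← primeMap_mul, inv_mul_cancel, primeMap_one] at h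
  have h2 : RingOfIntegers.mapRingEquiv ((σ⁻¹ : L ≃ₐ[ℚ] L) : L ≃+* L)
      (RingOfIntegers.mapRingEquiv (σ : L ≃+* L) r) = r := by
    ext
    show σ⁻¹ (σ (r : L)) = r
    exact σ.symm_apply_apply _
  rwa [h2] at h

lemma valuation_primeMap (σ : L ≃ₐ[ℚ] L) (P : HeightOneSpectrum (𝓞 L)) (x : L) :
    (primeMap σ P).valuation L (σ x) = P.valuation L x := by
  obtain ⟨a, b, hb, rfl⟩ := IsFractionRing.div_surjective (A := 𝓞 L) x
  have h1 : σ (algebraMap (𝓞 L) L a / algebraMap (𝓞 L) L b) =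
      algebraMap (𝓞 L) L (RingOfIntegers.mapRingEquiv (σ : L ≃+* L) a) /
        algebraMap (𝓞 L) L (RingOfIntegers.mapRingEquiv (σ : L ≃+* L) b) := by
    rw [map_div₀]; rfl
  rw [h1, map_div₀, map_div₀, HeightOneSpectrum.valuation_of_algebraMap,
    HeightOneSpectrum.valuation_of_algebraMap, HeightOneSpectrum.valuation_of_algebraMap,
    HeightOneSpectrum.valuation_of_algebraMap, intValuation_primeMap, intValuation_primeMap]

/-- The orders are equivariant: `ord_{σP}(σx) = ord_P(x)`. -/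
lemma ordAt_primeMap (σ : L ≃ₐ[ℚ] L) (P : HeightOneSpectrum (𝓞 L)) (x : Lˣ) :
    ordAt (primeMap σ P) (Units.map (σ : L →* L) x) = ordAt P x := by
  have h1 := valuationOfNeZero_eq_ordAt (primeMap σ P) (Units.map (σ : L →* L) x)
  have h2 := valuationOfNeZero_eq_ordAt P x
  have h3 : (((primeMap σ P).valuationOfNeZero (Units.map (σ : L →* L) x) : Multiplicative ℤ) :
      WithZero (Multiplicative ℤ)) = ((P.valuationOfNeZero x : Multiplicative ℤ) :
      WithZero (Multiplicative ℤ)) := by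
    rw [HeightOneSpectrum.valuationOfNeZero_eq, HeightOneSpectrum.valuationOfNeZero_eq]
    exact valuation_primeMap σ P x
  have h4 := WithZero.coe_injective h3
  rw [h1, h2] at h4
  have h5 := Multiplicative.ofAdd.injective h4
  linarith

/-! ### The divisor map -/

variable (L)

lemma ordAt_finite_support (x : Lˣ) : (Function.support fun P : OffS S L => ordAt P.1 x).Finite := by
  have h := FractionalIdeal.finite_factors (R := 𝓞 L) (K := L)
    (FractionalIdeal.spanSingleton (nonZeroDivisors (𝓞 L)) (x : L))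
  rw [Filter.eventually_cofinite] at h
  refine Set.Finite.of_injOn (f := Subtype.val) ?_ Subtype.val_injective.injOn h
  intro P hP
  exact hP

/-- The divisor of `x ∈ Lˣ` away from `S`. -/
noncomputable def divFun (x : Lˣ) : DivS S L :=
  Finsupp.ofSupportFinite (fun P : OffS S L => ordAt P.1 x) (ordAt_finite_support S L x)

@[simp] lemma divFun_apply (x : Lˣ) (P : OffS S L) : divFun S L x P = ordAt P.1 x := rfl

/-- The divisor map `Lˣ → Div_S(L)`, additively. -/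
noncomputable def divHom : Additive Lˣ →ₗ[ℤ] DivS S L :=
  (AddMonoidHom.mk' (fun x : Additive Lˣ => divFun S L (Additive.toMul x)) (fun x y => by
    ext P
    simp [ordAt_mul])).toIntLinearMap

@[simp] lemma divHom_apply (x : Additive Lˣ) (P : OffS S L) :
    divHom S L x P = ordAt P.1 (Additive.toMul x) := rfl

variable {L}

lemma divHom_equivariant (σ : L ≃ₐ[ℚ] L) (x : Additive Lˣ) :
    divHom S L (unitsEnd (σ : L →* L) x) = divEnd S σ (divHom S L x) := by
  ext P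
  obtain ⟨Q, rfl⟩ := (offEquiv S σ).surjective P
  rw [divEnd_apply, divHom_apply, divHom_apply]
  exact ordAt_primeMap σ Q.1 (Additive.toMul x)

/-! ### The class module -/

variable (L)

/-- `Lˣ → J_L × Div_S(L)`, `x ↦ ((1 ⊗ x)_q, div x)`. -/
noncomputable def iotaHom : Additive Lˣ →ₗ[ℤ] Additive (JL S L) × DivS S L :=
  LinearMap.prod (MonoidHom.toAdditive (jlDiag S L)).toIntLinearMap (divHom S L)

/-- **The `S`-idèle class module** `C_S(L) = (J_L × Div_S(L)) / Lˣ`. -/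
abbrev CS : Type := (Additive (JL S L) × DivS S L) ⧸ LinearMap.range (iotaHom S L)

/-- The projection `J_L × Div_S(L) → C_S(L)`. -/
noncomputable abbrev csMk : Additive (JL S L) × DivS S L →ₗ[ℤ] CS S L :=
  (LinearMap.range (iotaHom S L)).mkQ

/-- `J_L → C_S(L)`. -/
noncomputable def csOfJ : Additive (JL S L) →ₗ[ℤ] CS S L :=
  ((csMk S L).toAddMonoidHom.comp
    (AddMonoidHom.inl (Additive (JL S L)) (DivS S L))).toIntLinearMap

/-- `Div_S(L) → C_S(L)`. -/
noncomputable def csOfDiv : DivS S L →ₗ[ℤ] CS S L :=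
  ((csMk S L).toAddMonoidHom.comp
    (AddMonoidHom.inr (Additive (JL S L)) (DivS S L))).toIntLinearMap

@[simp] lemma csOfJ_apply (j : Additive (JL S L)) : csOfJ S L j = csMk S L (j, 0) := rfl

@[simp] lemma csOfDiv_apply (d : DivS S L) : csOfDiv S L d = csMk S L (0, d) := rfl

variable {L}

/-- The action of `σ ∈ Aut(L)` on `J_L × Div_S(L)`. -/
noncomputable def jdEnd (σ : L ≃ₐ[ℚ] L) :
    Additive (JL S L) × DivS S L →ₗ[ℤ] Additive (JL S L) × DivS S L :=
  LinearMap.prodMap (jlEnd S σ) (divEnd S σ)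

lemma jlDiag_equivariant (σ : L ≃ₐ[ℚ] L) (x : Lˣ) :
    jlDiag S L (Units.map (σ : L →* L) x) = jlHom S σ (jlDiag S L x) := by
  funext q
  apply Units.ext
  show (Algebra.TensorProduct.includeRight :
      L →ₐ[ℚ] semiAlg ((q : Nat.Primes) : ℕ) L) (σ _) =
    semiMap ((q : Nat.Primes) : ℕ) σ ((Algebra.TensorProduct.includeRight :
      L →ₐ[ℚ] semiAlg ((q : Nat.Primes) : ℕ) L) _)
  simp [semiMap]

lemma iotaHom_equivariant (σ : L ≃ₐ[ℚ] L) (x : Additive Lˣ) :
    iotaHom S L (unitsEnd (σ : L →* L) x) = jdEnd S σ (iotaHom S L x) := by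
  apply Prod.ext
  · exact congrArg Additive.ofMul (jlDiag_equivariant S σ (Additive.toMul x))
  · exact divHom_equivariant S σ x

lemma range_iotaHom_le_comap (σ : L ≃ₐ[ℚ] L) :
    LinearMap.range (iotaHom S L) ≤ (LinearMap.range (iotaHom S L)).comap (jdEnd S σ) := by
  rintro _ ⟨x, rfl⟩
  exact ⟨unitsEnd (σ : L →* L) x, iotaHom_equivariant S σ x⟩

/-- The action of `σ ∈ Aut(L)` on `C_S(L)`. -/
noncomputable def csEnd (σ : L ≃ₐ[ℚ] L) : Module.End ℤ (CS S L) :=
  Submodule.mapQ _ _ (jdEnd S σ) (range_iotaHom_le_comap S σ)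

@[simp] lemma csEnd_mk (σ : L ≃ₐ[ℚ] L) (y : Additive (JL S L) × DivS S L) :
    csEnd S σ (csMk S L y) = csMk S L (jdEnd S σ y) := rfl

/-! ### The representation -/

lemma semiMap_one (q : ℕ) [Fact q.Prime] (x : semiAlg q L) :
    semiMap q (1 : L ≃ₐ[ℚ] L) x = x := by
  have h : semiMap q (1 : L ≃ₐ[ℚ] L) = AlgHom.id ℚ_[q] (semiAlg q L) := by
    apply Algebra.TensorProduct.ext'
    intro a b
    simp [semiMap]
  rw [h]; rfl

lemma semiMap_mul (q : ℕ) [Fact q.Prime] (σ τ : L ≃ₐ[ℚ] L) (x : semiAlg q L) :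
    semiMap q (σ * τ) x = semiMap q σ (semiMap q τ x) := by
  have h : semiMap q (σ * τ) = (semiMap q σ).comp (semiMap q τ) := by
    apply Algebra.TensorProduct.ext'
    intro a b
    simp [semiMap]
  rw [h]; rfl

lemma jlHom_one (x : JL S L) : jlHom S (1 : L ≃ₐ[ℚ] L) x = x := by
  funext q
  apply Units.ext
  exact semiMap_one _ _

lemma jlHom_mul (σ τ : L ≃ₐ[ℚ] L) (x : JL S L) :
    jlHom S (σ * τ) x = jlHom S σ (jlHom S τ x) := by
  funext q
  apply Units.ext
  exact semiMap_mul _ σ τ _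

lemma jlEnd_one : jlEnd S (1 : L ≃ₐ[ℚ] L) = 1 := by
  apply LinearMap.ext
  intro x
  exact congrArg Additive.ofMul (jlHom_one S (Additive.toMul x))

lemma jlEnd_mul (σ τ : L ≃ₐ[ℚ] L) : jlEnd S (σ * τ) = jlEnd S σ * jlEnd S τ := by
  apply LinearMap.ext
  intro x
  exact congrArg Additive.ofMul (jlHom_mul S σ τ (Additive.toMul x))

lemma divEnd_one : divEnd S (1 : L ≃ₐ[ℚ] L) = LinearMap.id := by
  ext d P
  have h := divEnd_apply S (1 : L ≃ₐ[ℚ] L) (Finsupp.single d 1) P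
  rw [offEquiv_one] at h
  simpa using h

lemma divEnd_mul (σ τ : L ≃ₐ[ℚ] L) : divEnd S (σ * τ) = divEnd S σ ∘ₗ divEnd S τ := by
  apply LinearMap.ext
  intro d
  ext P
  obtain ⟨Q, rfl⟩ := (offEquiv S (σ * τ)).surjective P
  rw [divEnd_apply]
  have h : offEquiv S (σ * τ) Q = offEquiv S σ (offEquiv S τ Q) := by
    rw [offEquiv_mul]; rfl
  rw [h, LinearMap.comp_apply, divEnd_apply, divEnd_apply]

lemma jdEnd_one (y : Additive (JL S L) × DivS S L) : jdEnd S (1 : L ≃ₐ[ℚ] L) y = y := by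
  apply Prod.ext
  · show jlEnd S (1 : L ≃ₐ[ℚ] L) y.1 = y.1
    rw [jlEnd_one]; rfl
  · show divEnd S (1 : L ≃ₐ[ℚ] L) y.2 = y.2
    rw [divEnd_one]; rfl

lemma jdEnd_mul (σ τ : L ≃ₐ[ℚ] L) (y : Additive (JL S L) × DivS S L) :
    jdEnd S (σ * τ) y = jdEnd S σ (jdEnd S τ y) := by
  apply Prod.ext
  · show jlEnd S (σ * τ) y.1 = jlEnd S σ (jlEnd S τ y.1)
    rw [jlEnd_mul]; rfl
  · show divEnd S (σ * τ) y.2 = divEnd S σ (divEnd S τ y.2)
    rw [divEnd_mul]; rfl

variable (L)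

/-- The representation of `Aut(L)` on `C_S(L)`. -/
noncomputable def csRho : Representation ℤ (L ≃ₐ[ℚ] L) (CS S L) where
  toFun σ := csEnd S σ
  map_one' := by
    apply LinearMap.ext
    intro c
    induction c using Submodule.Quotient.induction_on with
    | _ y =>
      show csMk S L (jdEnd S 1 y) = csMk S L y
      rw [jdEnd_one]
  map_mul' σ τ := by
    apply LinearMap.ext
    intro c
    induction c using Submodule.Quotient.induction_on with
    | _ y =>
      show csMk S L (jdEnd S (σ * τ) y) = csMk S L (jdEnd S σ (jdEnd S τ y))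
      rw [jdEnd_mul]

/-- **The `S`-idèle class module as a representation of `Aut(L)`.** -/
noncomputable def csRep : Rep.{0} ℤ (L ≃ₐ[ℚ] L) := Rep.of (csRho S L)

end Fermat.Agent.PT.G
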