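/-
Project PT — SHARED GLOBAL STATEMENTS about the class module `C_S(L)` of PT/G/Defs.lean
(interface between PT-G1, PT-G2 and PT-G3).  Definitions and statements only, plus the wiring
`stmtCSHQ_of` of the first inequality.
-/
import Fermat.Agent.PT.G.Defs

set_option autoImplicit false

namespace Fermat.Agent.PT.G

open NumberField IsDedekindDomain Fermat.Agent.PT.G1

/-- **CS-exact**: `0 → E_{L,S} → J_L → C_S(L) → Cl_S(L) → 0` is exact and `Cl_S(L)` is finite. -/
def StmtCSExact : Prop :=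
  ∀ (S : Finset Nat.Primes) (L : Type) [Field L] [NumberField L],
    LinearMap.ker (csOfJ S L) = LinearMap.range (jlDiagUnits S L) ∧
    Finite (CS S L ⧸ LinearMap.range (csOfJ S L))

/-- **First inequality (G1-final)**: for `σ ∈ Aut(L)` of odd prime order `p` and `S ≠ ∅`, the
Herbrand quotient of `C_S(L)` is `p`: `|ker(σ-1)/im N| = p · |ker N/im(σ-1)|`, both finite. -/
def StmtCSHQ : Prop :=
  ∀ (p : ℕ) [Fact p.Prime], p ≠ 2 → ∀ (L : Type) [Field L] [NumberField L] (σ : L ≃ₐ[ℚ] L),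
    orderOf σ = p → ∀ S : Finset Nat.Primes, S.Nonempty → HasHQc (csEnd S σ) p p

/-- `L / L^σ` is unramified outside `S`: `σ` lies in no inertia group `I_P`, `P ∤ S`
(`σ` of prime order). -/
def UnramOff (S : Finset Nat.Primes) {L : Type} [Field L] [NumberField L] (σ : L ≃ₐ[ℚ] L) :
    Prop :=
  ∀ P : OffS S L, ∃ x : 𝓞 L, RingOfIntegers.mapRingEquiv (σ : L ≃+* L) x - x ∉ P.1.asIdeal

/-- **Second inequality, idelic form (G2-idelic)**: for `σ ∈ Aut(L)` of odd prime order `p` with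
`L / L^σ` unramified outside `S ≠ ∅`: `|C_S(L)^σ / N C_S(L)| ≤ p` (and finite). -/
def StmtCSH0 : Prop :=
  ∀ (p : ℕ) [Fact p.Prime], p ≠ 2 → ∀ (L : Type) [Field L] [NumberField L] (σ : L ≃ₐ[ℚ] L),
    orderOf σ = p → ∀ S : Finset Nat.Primes, S.Nonempty → UnramOff S σ →
      hqCard (csEnd S σ - 1) (nEnd (csEnd S σ) p) ≠ 0 ∧
      hqCard (csEnd S σ - 1) (nEnd (csEnd S σ) p) ≤ p

/-- **The cyclic case of the class formation axiom**: `Ĥ⁰(⟨σ⟩, C_S(L))` has order `p` and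
`Ĥ¹(⟨σ⟩, C_S(L)) = 0`. -/
def StmtCSCyclic : Prop :=
  ∀ (p : ℕ) [Fact p.Prime], p ≠ 2 → ∀ (L : Type) [Field L] [NumberField L] (σ : L ≃ₐ[ℚ] L),
    orderOf σ = p → ∀ S : Finset Nat.Primes, S.Nonempty → UnramOff S σ →
      hqCard (csEnd S σ - 1) (nEnd (csEnd S σ) p) = p ∧
      hqCard (nEnd (csEnd S σ) p) (csEnd S σ - 1) = 1

section Wiring

variable (S : Finset Nat.Primes) {L : Type} [Field L] [NumberField L]

lemma csOfJ_equivariant (σ : L ≃ₐ[ℚ] L) :
    csOfJ S L ∘ₗ jlEnd S σ = csEnd S σ ∘ₗ csOfJ S L := by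
  apply LinearMap.ext
  intro j
  show csMk S L (jlEnd S σ j, 0) = csMk S L (jdEnd S σ (j, 0))
  have h : jdEnd S σ ((j, 0) : Additive (JL S L) × DivS S L) = (jlEnd S σ j, 0) := by
    apply Prod.ext
    · rfl
    · show divEnd S σ 0 = (0 : DivS S L)
      rw [map_zero]
  rw [h]

lemma csEnd_pow (σ : L ≃ₐ[ℚ] L) (n : ℕ) : csEnd S σ ^ n = csEnd S (σ ^ n) := by
  have h := map_pow (csRho S L) σ n
  exact h.symm

lemma range_csOfJ_le_comap (σ : L ≃ₐ[ℚ] L) :
    LinearMap.range (csOfJ S L) ≤ (LinearMap.range (csOfJ S L)).comap (csEnd S σ) := by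
  rintro _ ⟨j, rfl⟩
  exact ⟨jlEnd S σ j, LinearMap.congr_fun (csOfJ_equivariant S σ) j⟩

/-- **First inequality** from C-main (`StmtClassHQ`) and CS-exact. -/
theorem stmtCSHQ_of (hC : StmtClassHQ) (hE : StmtCSExact) : StmtCSHQ := by
  intro p _ hp2 L _ _ σ hσ S hS
  obtain ⟨hker, hfin⟩ := hE S L
  have hpow : csEnd S σ ^ p = 1 := by
    rw [csEnd_pow, ← hσ, pow_orderOf_eq_one]
    exact map_one (csRho S L)
  set σF : Module.End ℤ (CS S L ⧸ LinearMap.range (csOfJ S L)) :=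
    Submodule.mapQ _ _ (csEnd S σ) (range_csOfJ_le_comap S σ) with hσF
  have hκ : (LinearMap.range (csOfJ S L)).mkQ ∘ₗ csEnd S σ =
      σF ∘ₗ (LinearMap.range (csOfJ S L)).mkQ := by
    apply LinearMap.ext
    intro c
    rfl
  have hσFpow : σF ^ p = 1 := by
    apply LinearMap.ext
    intro c
    obtain ⟨c, rfl⟩ := Submodule.mkQ_surjective _ c
    have h1 : ∀ n : ℕ, (σF ^ n) ((LinearMap.range (csOfJ S L)).mkQ c) =
        (LinearMap.range (csOfJ S L)).mkQ ((csEnd S σ ^ n) c) := by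
      intro n
      induction n generalizing c with
      | zero => rfl
      | succ n ih =>
        rw [pow_succ, pow_succ, Module.End.mul_apply, Module.End.mul_apply]
        have h2 : σF ((LinearMap.range (csOfJ S L)).mkQ c) =
            (LinearMap.range (csOfJ S L)).mkQ (csEnd S σ c) := rfl
        rw [h2, ih]
    rw [h1, hpow]
    rfl
  exact hC p hp2 L σ hσ S hS (CS S L) (CS S L ⧸ LinearMap.range (csOfJ S L))
    (csEnd S σ) σF (csOfJ S L) (LinearMap.range (csOfJ S L)).mkQ hpow hσFpow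
    (csOfJ_equivariant S σ) hκ hker (Submodule.ker_mkQ _).symm (Submodule.mkQ_surjective _)

/-- The cyclic case from the two inequalities. -/
theorem stmtCSCyclic_of (h1 : StmtCSHQ) (h2 : StmtCSH0) : StmtCSCyclic := by
  intro p _ hp2 L _ _ σ hσ S hS hun
  obtain ⟨-, ha, hb, hab⟩ := h1 p hp2 L σ hσ S hS
  obtain ⟨-, hle⟩ := h2 p hp2 L σ hσ S hS hun
  set a := hqCard (csEnd S σ - 1) (nEnd (csEnd S σ) p)
  set b := hqCard (nEnd (csEnd S σ) p) (csEnd S σ - 1)
  have hab' : a = p * b := by exact_mod_cast hab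
  have hb1 : b = 1 := by
    have hp0 : 0 < p := (Fact.out : p.Prime).pos
    have hbpos : 0 < b := Nat.pos_of_ne_zero hb
    have : p * b ≤ p * 1 := by rw [mul_one, ← hab']; exact hle
    have := Nat.le_of_mul_le_mul_left this hp0
    omega
  exact ⟨by rw [hab', hb1, mul_one], hb1⟩

end Wiring

end Fermat.Agent.PT.G
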