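/-
Project PT — shared model, piece **Defs-map** (helper47): functoriality of the class module
`C_S(·)` of PT/G/Defs.lean for an extension `L / K` of number fields (types, `[Algebra K L]`).

* `semiIncl q K L : ℚ_q ⊗ K →ₐ[ℚ_q] ℚ_q ⊗ L`, `jlMap S K L : J_K →* J_L`
* `offUnder S K L P` (the prime of `K` under a prime `P` of `L` off `S`), `ramIdx K P` (`e(P | P ∩ K)`)
* `divMap S K L : Div_S(K) →ₗ[ℤ] Div_S(L)`, `(divMap d)(P) = e(P | 𝔭) · d(𝔭)`, `𝔭 = P ∩ K`
* `csMap S K L : C_S(K) →ₗ[ℤ] C_S(L)`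
* equivariance: `csEnd S σ ∘ csMap = csMap ∘ csEnd S τ` if `σ ∈ Aut(L)` restricts to `τ ∈ Aut(K)`.
-/
import Fermat.Agent.PT.G.Defs

set_option autoImplicit false
set_option linter.unusedSectionVars false

namespace Fermat.Agent.PT.G

open NumberField IsDedekindDomain Fermat.Agent.PT.G1 Fermat.Agent.PT.X TensorProduct

variable (S : Finset Nat.Primes) (K L : Type) [Field K] [NumberField K] [Field L] [NumberField L]
  [Algebra K L]

/-! ### The idèle part -/

/-- `K → L` as a `ℚ`-algebra map. -/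
noncomputable def ratIncl : K →ₐ[ℚ] L := (algebraMap K L).toRatAlgHom

@[simp] lemma ratIncl_apply (x : K) : ratIncl K L x = algebraMap K L x := rfl

/-- `ℚ_q ⊗ K → ℚ_q ⊗ L`. -/
noncomputable def semiIncl (q : ℕ) [Fact q.Prime] : semiAlg q K →ₐ[ℚ_[q]] semiAlg q L :=
  Algebra.TensorProduct.map (AlgHom.id ℚ_[q] ℚ_[q]) (ratIncl K L)

@[simp] lemma semiIncl_tmul (q : ℕ) [Fact q.Prime] (y : ℚ_[q]) (x : K) :
    semiIncl K L q (y ⊗ₜ[ℚ] x) = y ⊗ₜ[ℚ] algebraMap K L x := by
  simp [semiIncl]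

/-- `J_K → J_L`. -/
noncomputable def jlMap : JL S K →* JL S L :=
  MonoidHom.pi fun q =>
    (Units.map (semiIncl K L ((q : Nat.Primes) : ℕ) :
      semiAlg ((q : Nat.Primes) : ℕ) K →* semiAlg ((q : Nat.Primes) : ℕ) L)).comp
      (Pi.evalMonoidHom _ q)

@[simp] lemma jlMap_apply (x : JL S K) (q : ↥S) :
    ((jlMap S K L x q : (semiAlg ((q : Nat.Primes) : ℕ) L)ˣ) : semiAlg ((q : Nat.Primes) : ℕ) L) =
      semiIncl K L ((q : Nat.Primes) : ℕ) (x q : semiAlg ((q : Nat.Primes) : ℕ) K) := rfl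

lemma jlMap_jlDiag (x : Kˣ) :
    jlMap S K L (jlDiag S K x) = jlDiag S L (Units.map (algebraMap K L : K →* L) x) := by
  funext q
  apply Units.ext
  show semiIncl K L ((q : Nat.Primes) : ℕ) ((1 : ℚ_[((q : Nat.Primes) : ℕ)]) ⊗ₜ[ℚ] (x : K)) =
    (1 : ℚ_[((q : Nat.Primes) : ℕ)]) ⊗ₜ[ℚ] (algebraMap K L (x : K))
  rw [semiIncl_tmul]

/-- `J_K → J_L`, additively. -/
noncomputable def jlMapLin : Additive (JL S K) →ₗ[ℤ] Additive (JL S L) :=
  (MonoidHom.toAdditive (jlMap S K L)).toIntLinearMap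

/-! ### The divisor part -/

variable {L}

/-- The prime of `K` under a prime of `L`. -/
noncomputable def primeUnder (P : HeightOneSpectrum (𝓞 L)) : HeightOneSpectrum (𝓞 K) :=
  HeightOneSpectrum.under (𝓞 K) P

lemma mem_primeUnder (P : HeightOneSpectrum (𝓞 L)) (x : 𝓞 K) :
    x ∈ (primeUnder K P).asIdeal ↔ algebraMap (𝓞 K) (𝓞 L) x ∈ P.asIdeal := Iff.rfl

instance primeUnder_liesOver (P : HeightOneSpectrum (𝓞 L)) :
    P.asIdeal.LiesOver (primeUnder K P).asIdeal := ⟨rfl⟩

/-- The ramification index `e(P | P ∩ K)`. -/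
noncomputable def ramIdx (P : HeightOneSpectrum (𝓞 L)) : ℕ :=
  (primeUnder K P).asIdeal.ramificationIdx' P.asIdeal

lemma ramIdx_ne_zero (P : HeightOneSpectrum (𝓞 L)) : ramIdx K P ≠ 0 :=
  Ideal.IsDedekindDomain.ramificationIdx'_ne_zero_of_liesOver P.asIdeal (primeUnder K P).ne_bot

/-- `w(x) = v(x) ^ e` for `x ∈ K`. -/
lemma valuation_algebraMap_eq_pow (P : HeightOneSpectrum (𝓞 L)) (x : K) :
    P.valuation L (algebraMap K L x) = (primeUnder K P).valuation K x ^ ramIdx K P :=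
  (HeightOneSpectrum.valuation_liesOver L (primeUnder K P) P x).symm


/-- `ord_P(x) = e(P | 𝔭) · ord_𝔭(x)` for `x ∈ Kˣ`. -/
lemma ordAt_algebraMap (P : HeightOneSpectrum (𝓞 L)) (x : Kˣ) :
    ordAt P (Units.map (algebraMap K L : K →* L) x) = (ramIdx K P : ℤ) * ordAt (primeUnder K P) x := by
  have h1 := valuationOfNeZero_eq_ordAt P (Units.map (algebraMap K L : K →* L) x)
  have h2 := valuationOfNeZero_eq_ordAt (primeUnder K P) x
  have h3 : ((P.valuationOfNeZero (Units.map (algebraMap K L : K →* L) x) : Multiplicative ℤ) :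
      WithZero (Multiplicative ℤ)) =
      (((primeUnder K P).valuationOfNeZero x ^ ramIdx K P : Multiplicative ℤ) :
        WithZero (Multiplicative ℤ)) := by
    rw [WithZero.coe_pow, HeightOneSpectrum.valuationOfNeZero_eq,
      HeightOneSpectrum.valuationOfNeZero_eq]
    exact valuation_algebraMap_eq_pow K P (x : K)
  have h4 := WithZero.coe_injective h3
  rw [h1, h2] at h4
  have h5 : -(ordAt P (Units.map (algebraMap K L : K →* L) x)) =
      (ramIdx K P) • (-(ordAt (primeUnder K P) x)) := by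
    have := congrArg Multiplicative.toAdd h4
    simpa using this
  rw [nsmul_eq_mul] at h5
  linarith

variable (L)

lemma natCast_mem_primeUnder_iff (P : HeightOneSpectrum (𝓞 L)) (n : ℕ) :
    (n : 𝓞 K) ∈ (primeUnder K P).asIdeal ↔ (n : 𝓞 L) ∈ P.asIdeal := by
  rw [mem_primeUnder, map_natCast]

variable {L}

/-- The prime of `K` under a prime of `L` off `S`. -/
noncomputable def offUnder (P : OffS S L) : OffS S K :=
  ⟨primeUnder K P.1, fun h => P.2 ((natCast_mem_primeUnder_iff K L P.1 _).1 h)⟩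

@[simp] lemma offUnder_val (P : OffS S L) : (offUnder S K P).1 = primeUnder K P.1 := rfl

lemma finite_fiber_primeUnder (𝔭 : HeightOneSpectrum (𝓞 K)) :
    {P : HeightOneSpectrum (𝓞 L) | primeUnder K P = 𝔭}.Finite := by
  have hfin := IsDedekindDomain.primesOver_finite 𝔭.asIdeal (𝓞 L)
  refine Set.Finite.of_injOn (f := HeightOneSpectrum.asIdeal) ?_ ?_ hfin
  · intro P hP
    refine ⟨P.isPrime, ⟨?_⟩⟩
    rw [← (hP : primeUnder K P = 𝔭)]
    rfl
  · intro P _ Q _ h
    exact HeightOneSpectrum.ext h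

lemma finite_fiber_offUnder (𝔭 : OffS S K) : {P : OffS S L | offUnder S K P = 𝔭}.Finite := by
  refine Set.Finite.of_injOn (f := Subtype.val) ?_ Subtype.val_injective.injOn
    (finite_fiber_primeUnder K (L := L) 𝔭.1)
  intro P hP
  exact congrArg Subtype.val (hP : offUnder S K P = 𝔭)

lemma divMap_finite_support (d : DivS S K) :
    (Function.support fun P : OffS S L => (ramIdx K P.1 : ℤ) * d (offUnder S K P)).Finite := by
  have h : (Function.support fun P : OffS S L => (ramIdx K P.1 : ℤ) * d (offUnder S K P)) ⊆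
      ⋃ 𝔭 ∈ d.support, {P : OffS S L | offUnder S K P = 𝔭} := by
    intro P hP
    simp only [Function.mem_support, ne_eq, mul_eq_zero, not_or] at hP
    simp only [Set.mem_iUnion, Set.mem_ofPred_eq, exists_prop]
    exact ⟨offUnder S K P, Finsupp.mem_support_iff.2 hP.2, rfl⟩
  exact (Set.Finite.biUnion d.support.finite_toSet fun 𝔭 _ => finite_fiber_offUnder S K 𝔭).subset h

variable (L)

/-- `Div_S(K) → Div_S(L)`: `(divMap d)(P) = e(P | 𝔭) · d(𝔭)`, `𝔭 = P ∩ K`
(so `𝔭 ↦ Σ_{P ∣ 𝔭} e(P | 𝔭) · P`). -/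
noncomputable def divMap : DivS S K →ₗ[ℤ] DivS S L where
  toFun d := Finsupp.ofSupportFinite (fun P : OffS S L => (ramIdx K P.1 : ℤ) * d (offUnder S K P))
    (divMap_finite_support S K d)
  map_add' d d' := by
    ext P
    simp [Finsupp.ofSupportFinite_coe, mul_add]
  map_smul' n d := by
    ext P
    simp [Finsupp.ofSupportFinite_coe, mul_left_comm]

@[simp] lemma divMap_apply (d : DivS S K) (P : OffS S L) :
    divMap S K L d P = (ramIdx K P.1 : ℤ) * d (offUnder S K P) := rfl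

lemma divMap_divHom (x : Additive Kˣ) :
    divMap S K L (divHom S K x) =
      divHom S L (Additive.ofMul (Units.map (algebraMap K L : K →* L) (Additive.toMul x))) := by
  ext P
  rw [divMap_apply, divHom_apply, divHom_apply]
  exact (ordAt_algebraMap K P.1 _).symm

/-! ### The class module -/

/-- `J_K × Div_S(K) → J_L × Div_S(L)`. -/
noncomputable def jdMap : Additive (JL S K) × DivS S K →ₗ[ℤ] Additive (JL S L) × DivS S L :=
  LinearMap.prodMap (jlMapLin S K L) (divMap S K L)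

lemma jdMap_iotaHom (x : Additive Kˣ) :
    jdMap S K L (iotaHom S K x) =
      iotaHom S L (Additive.ofMul (Units.map (algebraMap K L : K →* L) (Additive.toMul x))) := by
  apply Prod.ext
  · exact congrArg Additive.ofMul (jlMap_jlDiag S K L (Additive.toMul x))
  · exact divMap_divHom S K L x

lemma range_iotaHom_le_comap_jdMap :
    LinearMap.range (iotaHom S K) ≤ (LinearMap.range (iotaHom S L)).comap (jdMap S K L) := by
  rintro _ ⟨x, rfl⟩
  exact ⟨_, (jdMap_iotaHom S K L x).symm⟩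

/-- **`C_S(K) → C_S(L)`** for an extension `L / K` of number fields. -/
noncomputable def csMap : CS S K →ₗ[ℤ] CS S L :=
  Submodule.mapQ _ _ (jdMap S K L) (range_iotaHom_le_comap_jdMap S K L)

@[simp] lemma csMap_mk (y : Additive (JL S K) × DivS S K) :
    csMap S K L (csMk S K y) = csMk S L (jdMap S K L y) := rfl

lemma csMap_csOfJ (j : Additive (JL S K)) :
    csMap S K L (csOfJ S K j) = csOfJ S L (jlMapLin S K L j) := by
  rw [csOfJ_apply, csMap_mk, csOfJ_apply]
  congr 1
  apply Prod.ext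
  · rfl
  · exact map_zero (divMap S K L)

lemma csMap_csOfDiv (d : DivS S K) :
    csMap S K L (csOfDiv S K d) = csOfDiv S L (divMap S K L d) := by
  rw [csOfDiv_apply, csMap_mk, csOfDiv_apply]
  congr 1
  apply Prod.ext
  · exact map_zero (jlMapLin S K L)
  · rfl


/-! ### Equivariance -/

section Equivariance

variable {K L}
variable (σ : L ≃ₐ[ℚ] L) (τ : K ≃ₐ[ℚ] K)

/-- `σ ∈ Aut(L)` restricts to `τ ∈ Aut(K)`. -/
def Restricts : Prop := ∀ x : K, σ (algebraMap K L x) = algebraMap K L (τ x)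

variable {σ τ}

lemma Restricts.symm (h : Restricts σ τ) : Restricts σ⁻¹ τ⁻¹ := by
  intro x
  have h1 := h (τ⁻¹ x)
  have h2 : τ (τ⁻¹ x) = x := τ.apply_symm_apply x
  rw [h2] at h1
  have h3 : σ⁻¹ (σ (algebraMap K L (τ⁻¹ x))) = algebraMap K L (τ⁻¹ x) := σ.symm_apply_apply _
  rw [← h3, h1]

lemma Restricts.mapRingEquiv (h : Restricts σ τ) (x : 𝓞 K) :
    RingOfIntegers.mapRingEquiv (σ : L ≃+* L) (algebraMap (𝓞 K) (𝓞 L) x) =
      algebraMap (𝓞 K) (𝓞 L) (RingOfIntegers.mapRingEquiv (τ : K ≃+* K) x) := by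
  apply RingOfIntegers.ext
  exact h (x : K)

lemma semiMap_semiIncl (h : Restricts σ τ) (q : ℕ) [Fact q.Prime] (x : semiAlg q K) :
    semiMap q σ (semiIncl K L q x) = semiIncl K L q (semiMap q τ x) := by
  have hh : (semiMap q σ).comp (semiIncl K L q) = (semiIncl K L q).comp (semiMap q τ) := by
    apply Algebra.TensorProduct.ext'
    intro a b
    simp [semiMap, semiIncl, h b]
  exact DFunLike.congr_fun hh x

lemma jlEnd_jlMapLin (h : Restricts σ τ) (j : Additive (JL S K)) :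
    jlEnd S σ (jlMapLin S K L j) = jlMapLin S K L (jlEnd S τ j) := by
  apply Additive.toMul.injective
  funext q
  apply Units.ext
  exact semiMap_semiIncl h _ _

lemma primeUnder_primeMap (h : Restricts σ τ) (P : HeightOneSpectrum (𝓞 L)) :
    primeUnder K (primeMap σ P) = primeMap τ (primeUnder K P) := by
  apply HeightOneSpectrum.ext
  ext x
  rw [mem_primeUnder, mem_primeMap, mem_primeMap, mem_primeUnder]
  have := h.symm.mapRingEquiv x
  rw [show ((σ.symm : L ≃ₐ[ℚ] L) : L ≃+* L) = ((σ⁻¹ : L ≃ₐ[ℚ] L) : L ≃+* L) from rfl,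
    show ((τ.symm : K ≃ₐ[ℚ] K) : K ≃+* K) = ((τ⁻¹ : K ≃ₐ[ℚ] K) : K ≃+* K) from rfl, this]

lemma ramIdx_primeMap (h : Restricts σ τ) (P : HeightOneSpectrum (𝓞 L)) :
    ramIdx K (primeMap σ P) = ramIdx K P := by
  obtain ⟨π, hπ⟩ := (primeUnder K P).valuation_exists_uniformizer K
  have h1 : (primeMap σ P).valuation L (algebraMap K L (τ π)) =
      WithZero.exp (-1 : ℤ) ^ ramIdx K (primeMap σ P) := by
    rw [valuation_algebraMap_eq_pow, primeUnder_primeMap h, valuation_primeMap, hπ]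
  have h2 : (primeMap σ P).valuation L (algebraMap K L (τ π)) =
      WithZero.exp (-1 : ℤ) ^ ramIdx K P := by
    rw [← h π, valuation_primeMap, valuation_algebraMap_eq_pow, hπ]
  rw [h1] at h2
  rw [← WithZero.exp_nsmul, ← WithZero.exp_nsmul, WithZero.exp_inj] at h2
  simpa using h2

lemma offUnder_offEquiv (h : Restricts σ τ) (P : OffS S L) :
    offUnder S K (offEquiv S σ P) = offEquiv S τ (offUnder S K P) :=
  Subtype.ext (primeUnder_primeMap h P.1)

lemma divEnd_divMap (h : Restricts σ τ) (d : DivS S K) :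
    divEnd S σ (divMap S K L d) = divMap S K L (divEnd S τ d) := by
  ext P
  obtain ⟨Q, rfl⟩ := (offEquiv S σ).surjective P
  rw [divEnd_apply, divMap_apply, divMap_apply, offUnder_offEquiv S h, divEnd_apply]
  have : ramIdx K (offEquiv S σ Q).1 = ramIdx K Q.1 := ramIdx_primeMap h Q.1
  rw [this]

lemma jdEnd_jdMap (h : Restricts σ τ) (y : Additive (JL S K) × DivS S K) :
    jdEnd S σ (jdMap S K L y) = jdMap S K L (jdEnd S τ y) := by
  apply Prod.ext
  · exact jlEnd_jlMapLin S h y.1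
  · exact divEnd_divMap S h y.2

/-- **Equivariance of `csMap`.** -/
theorem csEnd_csMap (h : Restricts σ τ) (c : CS S K) :
    csEnd S σ (csMap S K L c) = csMap S K L (csEnd S τ c) := by
  induction c using Submodule.Quotient.induction_on with
  | _ y =>
    show csMk S L (jdEnd S σ (jdMap S K L y)) = csMk S L (jdMap S K L (jdEnd S τ y))
    rw [jdEnd_jdMap S h]

/-- The image of `csMap` is fixed by `Aut(L / K)`. -/
theorem csEnd_csMap_of_fixes (hσ : ∀ x : K, σ (algebraMap K L x) = algebraMap K L x) (c : CS S K) :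
    csEnd S σ (csMap S K L c) = csMap S K L c := by
  have h : Restricts σ (1 : K ≃ₐ[ℚ] K) := fun x => hσ x
  rw [csEnd_csMap S h]
  have : csEnd S (1 : K ≃ₐ[ℚ] K) = 1 := map_one (csRho S K)
  rw [this]; rfl

end Equivariance

end Fermat.Agent.PT.G
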