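/-
Project PT — shared model, statements part 2: Galois descent for `C_S(·)` and the glue from
PT-G2's idelic second inequality (`StmtIdelicSecond`) to `StmtCSH0`.
Definitions and statements only.  Piece table: NOTES/PT-G.md.
-/
import Fermat.Agent.PT.G.Plan
import Fermat.Agent.PT.G.Map
import Fermat.Agent.PT.G2.IdelicPlan

set_option autoImplicit false

namespace Fermat.Agent.PT.G

open NumberField IsDedekindDomain Fermat.Agent.PT.G1

/-- `L / K` is unramified outside `S`: `e(P | P ∩ K) = 1` for every prime `P` of `L` off `S`. -/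
def UnramOffRel (S : Finset Nat.Primes) (K L : Type) [Field K] [NumberField K] [Field L]
    [NumberField L] [Algebra K L] : Prop :=
  ∀ P : OffS S L, ramIdx K P.1 = 1

/-- **D-inj**: `C_S(K) → C_S(L)` is injective (`S ≠ ∅`). -/
def StmtCSMapInj : Prop :=
  ∀ (S : Finset Nat.Primes) (K L : Type) [Field K] [NumberField K] [Field L] [NumberField L]
    [Algebra K L], S.Nonempty → Function.Injective (csMap S K L)

/-- **D-semi**: the invariants of `Gal(L/K)` in `(ℚ_q ⊗ L)ˣ` are the image of `(ℚ_q ⊗ K)ˣ`. -/
def StmtSemiInv : Prop :=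
  ∀ (q : ℕ) [Fact q.Prime] (K L : Type) [Field K] [NumberField K] [Field L] [NumberField L]
    [Algebra K L] [IsGalois K L] (a : (semiAlg q L)ˣ),
    (∀ σ : L ≃ₐ[ℚ] L, (∀ x : K, σ (algebraMap K L x) = algebraMap K L x) →
      semiMap q σ (a : semiAlg q L) = a) →
    ∃ b : (semiAlg q K)ˣ, semiIncl K L q (b : semiAlg q K) = a

/-- **D-div**: if `L / K` is Galois and unramified outside `S`, the invariants of `Gal(L/K)` in
`Div_S(L)` are the image of `Div_S(K)`. -/
def StmtDivInv : Prop :=
  ∀ (S : Finset Nat.Primes) (K L : Type) [Field K] [NumberField K] [Field L] [NumberField L]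
    [Algebra K L] [IsGalois K L], UnramOffRel S K L → ∀ d : DivS S L,
    (∀ σ : L ≃ₐ[ℚ] L, (∀ x : K, σ (algebraMap K L x) = algebraMap K L x) → divEnd S σ d = d) →
    ∃ d₀ : DivS S K, divMap S K L d₀ = d

/-- **C-descent**: if `L / K` is Galois and unramified outside `S ≠ ∅`, the invariants of
`Gal(L/K)` in `C_S(L)` are the image of `C_S(K)`. -/
def StmtCSDescent : Prop :=
  ∀ (S : Finset Nat.Primes) (K L : Type) [Field K] [NumberField K] [Field L] [NumberField L]
    [Algebra K L] [IsGalois K L], S.Nonempty → UnramOffRel S K L → ∀ c : CS S L,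
    (∀ σ : L ≃ₐ[ℚ] L, (∀ x : K, σ (algebraMap K L x) = algebraMap K L x) → csEnd S σ c = c) →
    ∃ c₀ : CS S K, csMap S K L c₀ = c

/-- **D-unram**: for `L / K` cyclic of prime degree `p` with generator `σ`, `UnramOff S σ`
(`σ` in no inertia group off `S`) implies `UnramOffRel S K L`. -/
def StmtUnramOff : Prop :=
  ∀ (p : ℕ) [Fact p.Prime] (S : Finset Nat.Primes) (K L : Type) [Field K] [NumberField K]
    [Field L] [NumberField L] [Algebra K L] [IsGalois K L] (σ : L ≃ₐ[ℚ] L),
    (∀ x : K, σ (algebraMap K L x) = algebraMap K L x) → Module.finrank K L = p →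
    orderOf σ = p → UnramOff S σ → UnramOffRel S K L

/-- **D-split**: for `L / K` cyclic of prime degree `p` with generator `σ`, unramified outside
`S`, and a prime `v` of `K` off `S` with a prime `w` of degree one above it:
`Σ_{i<p} σ^i [w] = [v]` in `Div_S(L)` (`v` splits completely). -/
def StmtSplitNorm : Prop :=
  ∀ (p : ℕ) [Fact p.Prime] (S : Finset Nat.Primes) (K L : Type) [Field K] [NumberField K]
    [Field L] [NumberField L] [Algebra K L] [IsGalois K L] (σ : L ≃ₐ[ℚ] L),
    (∀ x : K, σ (algebraMap K L x) = algebraMap K L x) → Module.finrank K L = p →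
    orderOf σ = p → UnramOffRel S K L → ∀ (v : OffS S K) (w : OffS S L),
    offUnder S K w = v → Ideal.absNorm w.1.asIdeal = Ideal.absNorm v.1.asIdeal →
    divMap S K L (Finsupp.single v 1) =
      ∑ i ∈ Finset.range p, divEnd S (σ ^ i) (Finsupp.single w 1)

end Fermat.Agent.PT.G
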