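/-
Project PT — PT-G / Defs-rep (helper59): the representations of `Γ = Aut(L) = L ≃ₐ[ℚ] L` on the
pieces of the tensor model of PT/G/Defs.lean, as objects and morphisms of Mathlib's `Rep ℤ Γ`.

* `semiRho q L`, `semiRep q L`   : `Γ` on `Additive (ℚ_[q] ⊗[ℚ] L)ˣ`
* `jlRho S L`, `jlRep S L`       : `Γ` on `Additive (JL S L)`
* `divRho S L`, `divRep S L`     : `Γ` on `Div_S(L)`
* `jdRho S L`, `jdRep S L`       : `Γ` on `Additive (JL S L) × Div_S(L)`
* `unitsRho L`, `unitsRep L`     : `Γ` on `Additive Lˣ`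
* Rep morphisms `jIncl S L q : semiRep q L ⟶ jlRep S L`, `jProj S L q : jlRep S L ⟶ semiRep q L`,
  `csOfJRep`, `csOfDivRep`, `csMkRep`, `iotaRep`, `jdFstRep`, `jdSndRep`, `jdInlRep`, `jdInrRep`
* `csMk_surjective`, `csMk_eq_zero_iff`, `csMk_eq_iff`, `csOfJ_eq_zero_iff`
-/
import Fermat.Agent.PT.G.Plan

set_option autoImplicit false

namespace Fermat.Agent.PT.G

open NumberField IsDedekindDomain Fermat.Agent.PT.G1 CategoryTheory

variable (S : Finset Nat.Primes) (L : Type) [Field L] [NumberField L]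

/-! ### The class module: surjectivity and kernel of `csMk` -/

lemma csMk_surjective : Function.Surjective (csMk S L) :=
  Submodule.mkQ_surjective _

lemma csMk_eq_zero_iff' (x : Additive (JL S L) × DivS S L) :
    csMk S L x = 0 ↔ ∃ a : Additive Lˣ, iotaHom S L a = x := by
  rw [Submodule.mkQ_apply, Submodule.Quotient.mk_eq_zero, LinearMap.mem_range]

lemma iotaHom_apply (a : Additive Lˣ) :
    iotaHom S L a = (Additive.ofMul (jlDiag S L (Additive.toMul a)), divFun S L (Additive.toMul a)) :=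
  rfl

/-- `csMk x = 0` iff `x` is the image of some `a ∈ Lˣ`: `x = (diag a, div a)`. -/
lemma csMk_eq_zero_iff (x : Additive (JL S L) × DivS S L) :
    csMk S L x = 0 ↔ ∃ a : Lˣ, x = (Additive.ofMul (jlDiag S L a), divFun S L a) := by
  rw [csMk_eq_zero_iff']
  constructor
  · rintro ⟨a, rfl⟩
    exact ⟨Additive.toMul a, rfl⟩
  · rintro ⟨a, rfl⟩
    exact ⟨Additive.ofMul a, rfl⟩

/-- Two elements of `J_L × Div_S(L)` have the same class iff they differ by some `a ∈ Lˣ`. -/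
lemma csMk_eq_iff (x y : Additive (JL S L) × DivS S L) :
    csMk S L x = csMk S L y ↔
      ∃ a : Lˣ, x - y = (Additive.ofMul (jlDiag S L a), divFun S L a) := by
  rw [← sub_eq_zero, ← map_sub, csMk_eq_zero_iff]

/-- `csOfJ j = 0` iff `j = diag a` for some `a ∈ Lˣ` whose divisor away from `S` is `0`. -/
lemma csOfJ_eq_zero_iff (j : Additive (JL S L)) :
    csOfJ S L j = 0 ↔ ∃ a : Lˣ, j = Additive.ofMul (jlDiag S L a) ∧ divFun S L a = 0 := by
  rw [csOfJ_apply, csMk_eq_zero_iff]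
  constructor
  · rintro ⟨a, ha⟩
    exact ⟨a, congrArg Prod.fst ha, (congrArg Prod.snd ha).symm⟩
  · rintro ⟨a, ha, ha'⟩
    exact ⟨a, Prod.ext ha ha'.symm⟩

/-- `csOfDiv d = 0` iff `d = div a` for some `a ∈ Lˣ` with `diag a = 1`. -/
lemma csOfDiv_eq_zero_iff (d : DivS S L) :
    csOfDiv S L d = 0 ↔ ∃ a : Lˣ, jlDiag S L a = 1 ∧ d = divFun S L a := by
  rw [csOfDiv_apply, csMk_eq_zero_iff]
  constructor
  · rintro ⟨a, ha⟩
    refine ⟨a, ?_, congrArg Prod.snd ha⟩
    have h := congrArg Prod.fst ha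
    exact congrArg Additive.toMul h.symm
  · rintro ⟨a, ha, ha'⟩
    refine ⟨a, Prod.ext ?_ ha'⟩
    show (0 : Additive (JL S L)) = Additive.ofMul (jlDiag S L a)
    rw [ha]
    rfl

lemma csMk_eq_csOfJ_add_csOfDiv (x : Additive (JL S L) × DivS S L) :
    csMk S L x = csOfJ S L x.1 + csOfDiv S L x.2 := by
  rw [csOfJ_apply, csOfDiv_apply, ← map_add]
  congr 1
  apply Prod.ext
  · show x.1 = x.1 + 0
    rw [add_zero]
  · show x.2 = 0 + x.2
    rw [zero_add]

/-! ### The representations -/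

/-- The representation of `Aut(L)` on `Additive Lˣ`. -/
noncomputable def unitsRho : Representation ℤ (L ≃ₐ[ℚ] L) (Additive Lˣ) where
  toFun σ := unitsEnd (σ : L →* L)
  map_one' := by
    apply LinearMap.ext
    intro x
    rfl
  map_mul' σ τ := by
    apply LinearMap.ext
    intro x
    rfl

/-- `Additive Lˣ` as an object of `Rep ℤ Aut(L)`. -/
noncomputable def unitsRep : Rep.{0} ℤ (L ≃ₐ[ℚ] L) := Rep.of (unitsRho L)

@[simp] lemma unitsRho_apply (σ : L ≃ₐ[ℚ] L) (x : Additive Lˣ) :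
    unitsRho L σ x = unitsEnd (σ : L →* L) x := rfl

section Semi

omit S L

/-- The representation of `Aut(L)` on `Additive (ℚ_[q] ⊗[ℚ] L)ˣ`. -/
noncomputable def semiRho (q : ℕ) [Fact q.Prime] (L : Type) [Field L] [NumberField L] :
    Representation ℤ (L ≃ₐ[ℚ] L) (Additive (semiAlg q L)ˣ) where
  toFun σ := unitsEnd (semiMap q σ : semiAlg q L →* semiAlg q L)
  map_one' := by
    apply LinearMap.ext
    intro x
    apply congrArg Additive.ofMul
    apply Units.ext
    exact semiMap_one q _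
  map_mul' σ τ := by
    apply LinearMap.ext
    intro x
    apply congrArg Additive.ofMul
    apply Units.ext
    exact semiMap_mul q σ τ _

/-- `Additive (ℚ_[q] ⊗[ℚ] L)ˣ` as an object of `Rep ℤ Aut(L)`. -/
noncomputable def semiRep (q : ℕ) [Fact q.Prime] (L : Type) [Field L] [NumberField L] :
    Rep.{0} ℤ (L ≃ₐ[ℚ] L) := Rep.of (semiRho q L)

@[simp] lemma semiRho_apply (q : ℕ) [Fact q.Prime] (L : Type) [Field L] [NumberField L]
    (σ : L ≃ₐ[ℚ] L) (x : Additive (semiAlg q L)ˣ) :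
    semiRho q L σ x = unitsEnd (semiMap q σ : semiAlg q L →* semiAlg q L) x := rfl

end Semi

/-- The representation of `Aut(L)` on `Additive J_L`. -/
noncomputable def jlRho : Representation ℤ (L ≃ₐ[ℚ] L) (Additive (JL S L)) where
  toFun σ := jlEnd S σ
  map_one' := jlEnd_one S
  map_mul' σ τ := jlEnd_mul S σ τ

/-- `Additive J_L` as an object of `Rep ℤ Aut(L)`. -/
noncomputable def jlRep : Rep.{0} ℤ (L ≃ₐ[ℚ] L) := Rep.of (jlRho S L)

@[simp] lemma jlRho_apply (σ : L ≃ₐ[ℚ] L) (x : Additive (JL S L)) :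
    jlRho S L σ x = jlEnd S σ x := rfl

/-- The representation of `Aut(L)` on `Div_S(L)`. -/
noncomputable def divRho : Representation ℤ (L ≃ₐ[ℚ] L) (DivS S L) where
  toFun σ := divEnd S σ
  map_one' := divEnd_one S
  map_mul' σ τ := divEnd_mul S σ τ

/-- `Div_S(L)` as an object of `Rep ℤ Aut(L)`. -/
noncomputable def divRep : Rep.{0} ℤ (L ≃ₐ[ℚ] L) := Rep.of (divRho S L)

@[simp] lemma divRho_apply (σ : L ≃ₐ[ℚ] L) (d : DivS S L) :
    divRho S L σ d = divEnd S σ d := rfl

/-- The representation of `Aut(L)` on `Additive J_L × Div_S(L)`. -/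
noncomputable def jdRho : Representation ℤ (L ≃ₐ[ℚ] L) (Additive (JL S L) × DivS S L) where
  toFun σ := jdEnd S σ
  map_one' := by
    apply LinearMap.ext
    intro y
    exact jdEnd_one S y
  map_mul' σ τ := by
    apply LinearMap.ext
    intro y
    exact jdEnd_mul S σ τ y

/-- `Additive J_L × Div_S(L)` as an object of `Rep ℤ Aut(L)`. -/
noncomputable def jdRep : Rep.{0} ℤ (L ≃ₐ[ℚ] L) := Rep.of (jdRho S L)

@[simp] lemma jdRho_apply (σ : L ≃ₐ[ℚ] L) (y : Additive (JL S L) × DivS S L) :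
    jdRho S L σ y = jdEnd S σ y := rfl

@[simp] lemma csRho_apply (σ : L ≃ₐ[ℚ] L) (c : CS S L) : csRho S L σ c = csEnd S σ c := rfl

/-! ### The components of `J_L` -/

/-- The projection `J_L → (ℚ_q ⊗ L)ˣ`, as a linear map. -/
noncomputable def jProjLin (q : ↥S) :
    Additive (JL S L) →ₗ[ℤ] Additive (semiAlg ((q : Nat.Primes) : ℕ) L)ˣ :=
  (MonoidHom.toAdditive
    (Pi.evalMonoidHom (fun q : ↥S => (semiAlg ((q : Nat.Primes) : ℕ) L)ˣ) q)).toIntLinearMap

/-- The inclusion `(ℚ_q ⊗ L)ˣ → J_L` of the `q`-component, as a linear map. -/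
noncomputable def jInclLin (q : ↥S) :
    Additive (semiAlg ((q : Nat.Primes) : ℕ) L)ˣ →ₗ[ℤ] Additive (JL S L) :=
  (MonoidHom.toAdditive
    (MonoidHom.mulSingle (fun q : ↥S => (semiAlg ((q : Nat.Primes) : ℕ) L)ˣ) q)).toIntLinearMap

@[simp] lemma jProjLin_apply (q : ↥S) (x : Additive (JL S L)) :
    jProjLin S L q x = Additive.ofMul (Additive.toMul x q) := rfl

@[simp] lemma jInclLin_apply (q : ↥S) (x : Additive (semiAlg ((q : Nat.Primes) : ℕ) L)ˣ) :
    jInclLin S L q x = Additive.ofMul (Pi.mulSingle q (Additive.toMul x) : JL S L) := rfl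

lemma jProjLin_jInclLin (q : ↥S) (x : Additive (semiAlg ((q : Nat.Primes) : ℕ) L)ˣ) :
    jProjLin S L q (jInclLin S L q x) = x := by
  rw [jInclLin_apply, jProjLin_apply]
  show Additive.ofMul ((Pi.mulSingle q (Additive.toMul x) : JL S L) q) = x
  rw [Pi.mulSingle_eq_same]
  rfl

lemma jProjLin_jInclLin_of_ne {q q' : ↥S} (h : q' ≠ q)
    (x : Additive (semiAlg ((q : Nat.Primes) : ℕ) L)ˣ) :
    jProjLin S L q' (jInclLin S L q x) = 0 := by
  rw [jInclLin_apply, jProjLin_apply]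
  show Additive.ofMul ((Pi.mulSingle q (Additive.toMul x) : JL S L) q') = 0
  rw [Pi.mulSingle_eq_of_ne h]
  rfl

lemma jInclLin_injective (q : ↥S) : Function.Injective (jInclLin S L q) :=
  Function.LeftInverse.injective (jProjLin_jInclLin S L q)

lemma jProjLin_surjective (q : ↥S) : Function.Surjective (jProjLin S L q) :=
  Function.RightInverse.surjective (jProjLin_jInclLin S L q)

variable {L}

lemma jProjLin_equivariant (q : ↥S) (σ : L ≃ₐ[ℚ] L) (x : Additive (JL S L)) :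
    jProjLin S L q (jlEnd S σ x) =
      unitsEnd (semiMap ((q : Nat.Primes) : ℕ) σ :
        semiAlg ((q : Nat.Primes) : ℕ) L →* semiAlg ((q : Nat.Primes) : ℕ) L)
        (jProjLin S L q x) := rfl

lemma jlHom_mulSingle (q : ↥S) (σ : L ≃ₐ[ℚ] L) (x : (semiAlg ((q : Nat.Primes) : ℕ) L)ˣ) :
    jlHom S σ (Pi.mulSingle q x) =
      Pi.mulSingle q (Units.map (semiMap ((q : Nat.Primes) : ℕ) σ :
        semiAlg ((q : Nat.Primes) : ℕ) L →* semiAlg ((q : Nat.Primes) : ℕ) L) x) := by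
  funext q'
  by_cases h : q' = q
  · subst h
    show Units.map _ ((Pi.mulSingle q' x : JL S L) q') = _
    rw [Pi.mulSingle_eq_same, Pi.mulSingle_eq_same]
  · show Units.map _ ((Pi.mulSingle q x : JL S L) q') = _
    rw [Pi.mulSingle_eq_of_ne h, Pi.mulSingle_eq_of_ne h, map_one]

lemma jInclLin_equivariant (q : ↥S) (σ : L ≃ₐ[ℚ] L)
    (x : Additive (semiAlg ((q : Nat.Primes) : ℕ) L)ˣ) :
    jInclLin S L q (unitsEnd (semiMap ((q : Nat.Primes) : ℕ) σ :
        semiAlg ((q : Nat.Primes) : ℕ) L →* semiAlg ((q : Nat.Primes) : ℕ) L) x) =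
      jlEnd S σ (jInclLin S L q x) :=
  congrArg Additive.ofMul (jlHom_mulSingle S q σ (Additive.toMul x)).symm

variable (L)

/-- **The `q`-component of `J_L`**, projection, as a morphism of `Rep ℤ Aut(L)`. -/
noncomputable def jProj (q : ↥S) : jlRep S L ⟶ semiRep ((q : Nat.Primes) : ℕ) L :=
  Rep.ofHom ⟨jProjLin S L q, fun σ => LinearMap.ext fun x => jProjLin_equivariant S q σ x⟩

/-- **The `q`-component of `J_L`**, inclusion, as a morphism of `Rep ℤ Aut(L)`. -/
noncomputable def jIncl (q : ↥S) : semiRep ((q : Nat.Primes) : ℕ) L ⟶ jlRep S L :=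
  Rep.ofHom ⟨jInclLin S L q, fun σ => LinearMap.ext fun x => jInclLin_equivariant S q σ x⟩

@[simp] lemma jProj_hom_toLinearMap (q : ↥S) :
    (jProj S L q).hom.toLinearMap = jProjLin S L q := rfl

@[simp] lemma jIncl_hom_toLinearMap (q : ↥S) :
    (jIncl S L q).hom.toLinearMap = jInclLin S L q := rfl

lemma jIncl_comp_jProj (q : ↥S) : jIncl S L q ≫ jProj S L q = 𝟙 _ := by
  apply Rep.hom_ext
  apply Representation.IntertwiningMap.ext
  apply LinearMap.ext
  intro x
  exact jProjLin_jInclLin S L q x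

lemma jIncl_comp_jProj_of_ne {q q' : ↥S} (h : q' ≠ q) :
    (jIncl S L q ≫ jProj S L q').hom.toLinearMap = 0 := by
  apply LinearMap.ext
  intro x
  exact jProjLin_jInclLin_of_ne S L h x

/-- An element of `J_L` is the sum of its components. -/
lemma sum_jInclLin_jProjLin (x : Additive (JL S L)) :
    ∑ q : ↥S, jInclLin S L q (jProjLin S L q x) = x := by
  have h : ∀ (T : Finset ↥S), Additive.toMul (∑ q ∈ T, jInclLin S L q (jProjLin S L q x)) =
      ∏ q ∈ T, (Pi.mulSingle q (Additive.toMul x q) : JL S L) := by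
    intro T
    induction T using Finset.induction_on with
    | empty => rfl
    | insert a T ha ih =>
      rw [Finset.sum_insert ha, Finset.prod_insert ha, ← ih]
      rfl
  apply Additive.toMul.injective
  rw [h]
  exact Finset.univ_prod_mulSingle (Additive.toMul x)

/-! ### The maps of the class module as morphisms of `Rep ℤ Aut(L)` -/

/-- `Lˣ → J_L × Div_S(L)` as a morphism of `Rep ℤ Aut(L)`. -/
noncomputable def iotaRep : unitsRep L ⟶ jdRep S L :=
  Rep.ofHom ⟨iotaHom S L, fun σ => LinearMap.ext fun x => iotaHom_equivariant S σ x⟩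

/-- `J_L × Div_S(L) → C_S(L)` as a morphism of `Rep ℤ Aut(L)`. -/
noncomputable def csMkRep : jdRep S L ⟶ csRep S L :=
  Rep.ofHom ⟨csMk S L, fun _ => LinearMap.ext fun _ => rfl⟩

/-- `J_L → C_S(L)` as a morphism of `Rep ℤ Aut(L)`. -/
noncomputable def csOfJRep : jlRep S L ⟶ csRep S L :=
  Rep.ofHom ⟨csOfJ S L, fun σ => csOfJ_equivariant S σ⟩

lemma csOfDiv_equivariant {L : Type} [Field L] [NumberField L] (σ : L ≃ₐ[ℚ] L) :
    csOfDiv S L ∘ₗ divEnd S σ = csEnd S σ ∘ₗ csOfDiv S L := by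
  apply LinearMap.ext
  intro d
  show csMk S L (0, divEnd S σ d) = csMk S L (jdEnd S σ (0, d))
  have h : jdEnd S σ ((0, d) : Additive (JL S L) × DivS S L) = (0, divEnd S σ d) := by
    apply Prod.ext
    · show jlEnd S σ 0 = (0 : Additive (JL S L))
      rw [map_zero]
    · rfl
  rw [h]

/-- `Div_S(L) → C_S(L)` as a morphism of `Rep ℤ Aut(L)`. -/
noncomputable def csOfDivRep : divRep S L ⟶ csRep S L :=
  Rep.ofHom ⟨csOfDiv S L, fun σ => csOfDiv_equivariant S σ⟩

/-- `J_L → J_L × Div_S(L)` as a morphism of `Rep ℤ Aut(L)`. -/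
noncomputable def jdInlRep : jlRep S L ⟶ jdRep S L :=
  Rep.ofHom ⟨LinearMap.inl ℤ (Additive (JL S L)) (DivS S L), fun σ => LinearMap.ext fun x => by
    apply Prod.ext
    · rfl
    · show (0 : DivS S L) = divEnd S σ 0
      rw [map_zero]⟩

/-- `Div_S(L) → J_L × Div_S(L)` as a morphism of `Rep ℤ Aut(L)`. -/
noncomputable def jdInrRep : divRep S L ⟶ jdRep S L :=
  Rep.ofHom ⟨LinearMap.inr ℤ (Additive (JL S L)) (DivS S L), fun σ => LinearMap.ext fun x => by
    apply Prod.ext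
    · show (0 : Additive (JL S L)) = jlEnd S σ 0
      rw [map_zero]
    · rfl⟩

/-- `J_L × Div_S(L) → J_L` as a morphism of `Rep ℤ Aut(L)`. -/
noncomputable def jdFstRep : jdRep S L ⟶ jlRep S L :=
  Rep.ofHom ⟨LinearMap.fst ℤ (Additive (JL S L)) (DivS S L), fun _ => LinearMap.ext fun _ => rfl⟩

/-- `J_L × Div_S(L) → Div_S(L)` as a morphism of `Rep ℤ Aut(L)`. -/
noncomputable def jdSndRep : jdRep S L ⟶ divRep S L :=
  Rep.ofHom ⟨LinearMap.snd ℤ (Additive (JL S L)) (DivS S L), fun _ => LinearMap.ext fun _ => rfl⟩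

@[simp] lemma csMkRep_hom_toLinearMap : (csMkRep S L).hom.toLinearMap = csMk S L := rfl

@[simp] lemma csOfJRep_hom_toLinearMap : (csOfJRep S L).hom.toLinearMap = csOfJ S L := rfl

@[simp] lemma csOfDivRep_hom_toLinearMap : (csOfDivRep S L).hom.toLinearMap = csOfDiv S L := rfl

@[simp] lemma iotaRep_hom_toLinearMap : (iotaRep S L).hom.toLinearMap = iotaHom S L := rfl

lemma jdInlRep_comp_csMkRep : jdInlRep S L ≫ csMkRep S L = csOfJRep S L := rfl

lemma jdInrRep_comp_csMkRep : jdInrRep S L ≫ csMkRep S L = csOfDivRep S L := rfl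

/-- `Lˣ → J_L × Div_S(L) → C_S(L)` is zero. -/
lemma iotaRep_comp_csMkRep_apply (a : Additive Lˣ) : csMk S L (iotaHom S L a) = 0 :=
  (csMk_eq_zero_iff' S L _).2 ⟨a, rfl⟩

end Fermat.Agent.PT.G
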