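/-
Project PT — PT-G / CS-exact (helper56): the sequence
`0 → E_{L,S} → J_L → C_S(L) → Cl_S(L) → 0` is exact and `Cl_S(L)` is finite.
-/
import Fermat.Agent.PT.G.Plan
import Fermat.Agent.PT.G1.UnitRank

set_option autoImplicit false

namespace Fermat.Agent.PT.G

open NumberField IsDedekindDomain Fermat.Agent.PT.G1 Fermat.Agent.PT.X

section Ord

variable {L : Type} [Field L] [NumberField L]

lemma cse_val_eq (v : HeightOneSpectrum (𝓞 L)) (x : Lˣ) :
    v.valuation L (x : L) =
      ((Multiplicative.ofAdd (-(ordAt v x)) : Multiplicative ℤ) : WithZero (Multiplicative ℤ)) := by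
  rw [← HeightOneSpectrum.valuationOfNeZero_eq, valuationOfNeZero_eq_ordAt]

lemma cse_val_le_one_iff (v : HeightOneSpectrum (𝓞 L)) (x : Lˣ) :
    v.valuation L (x : L) ≤ 1 ↔ 0 ≤ ordAt v x := by
  rw [cse_val_eq, ← WithZero.coe_one, WithZero.coe_le_coe, ← ofAdd_zero,
    Multiplicative.ofAdd_le]
  constructor <;> intro h <;> linarith

lemma cse_val_eq_one_iff (v : HeightOneSpectrum (𝓞 L)) (x : Lˣ) :
    v.valuation L (x : L) = 1 ↔ ordAt v x = 0 := by
  rw [cse_val_eq, ← WithZero.coe_one, WithZero.coe_inj, ← ofAdd_zero]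
  constructor
  · intro h
    have := Multiplicative.ofAdd.injective h
    linarith
  · intro h
    rw [h, neg_zero]

lemma cse_val_lt_one_iff (v : HeightOneSpectrum (𝓞 L)) (x : Lˣ) :
    v.valuation L (x : L) < 1 ↔ 0 < ordAt v x := by
  rw [cse_val_eq, ← WithZero.coe_one, WithZero.coe_lt_coe, ← ofAdd_zero,
    Multiplicative.ofAdd_lt]
  constructor <;> intro h <;> linarith

lemma cse_ordAt_pow (v : HeightOneSpectrum (𝓞 L)) (x : Lˣ) (k : ℕ) :
    ordAt v (x ^ k) = k * ordAt v x := by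
  induction k with
  | zero => simp [ordAt_one]
  | succ k ih => rw [pow_succ, ordAt_mul, ih]; push_cast; ring

/-- An element whose orders are all nonnegative is integral. -/
lemma cse_isIntegral_of_ordAt_nonneg (y : Lˣ)
    (h : ∀ v : HeightOneSpectrum (𝓞 L), 0 ≤ ordAt v y) : IsIntegral ℤ (y : L) := by
  have h1 : (y : L) ∈ (algebraMap (𝓞 L) L).range :=
    HeightOneSpectrum.mem_integers_of_valuation_le_one L (y : L)
      fun v => (cse_val_le_one_iff v y).2 (h v)
  obtain ⟨r, hr⟩ := h1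
  rw [← hr]
  exact RingOfIntegers.isIntegral_coe r

variable (L) in
/-- `N` as a unit of `L`. -/
noncomputable def cseNat (N : ℕ) (hN : N ≠ 0) : Lˣ :=
  Units.mk0 (N : L) (by exact_mod_cast hN)

lemma cse_ordAt_nat_nonneg (N : ℕ) (hN : N ≠ 0) (v : HeightOneSpectrum (𝓞 L)) :
    0 ≤ ordAt v (cseNat L N hN) := by
  rw [← cse_val_le_one_iff]
  have := v.valuation_le_one (K := L) (N : 𝓞 L)
  simpa [cseNat] using this

lemma cse_ordAt_nat_pos (N : ℕ) (hN : N ≠ 0) (v : HeightOneSpectrum (𝓞 L))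
    (hv : (N : 𝓞 L) ∈ v.asIdeal) : 0 < ordAt v (cseNat L N hN) := by
  rw [← cse_val_lt_one_iff]
  have := (v.valuation_lt_one_iff_mem (K := L) (N : 𝓞 L)).2 hv
  simpa [cseNat] using this

/-- **The `N`-units are the elements of order `0` away from `N`.** -/
lemma cse_mem_nUnits_iff (N : ℕ) (hN : N ≠ 0) (x : Lˣ) :
    x ∈ nUnits N L ↔
      ∀ P : HeightOneSpectrum (𝓞 L), (N : 𝓞 L) ∉ P.asIdeal → ordAt P x = 0 := by
  classical
  constructor
  · intro hx P hP
    exact (cse_val_eq_one_iff P x).1 (ur_val_eq_one (⟨x, hx⟩ : nUnits N L) P hP)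
  · intro hx
    have hfin : Finite (UrS L N) := ur_finite hN
    letI : Fintype (UrS L N) := Fintype.ofFinite _
    set k : ℕ := ∑ P : UrS L N, (ordAt P.1 x).natAbs with hk
    have hkP : ∀ P : HeightOneSpectrum (𝓞 L), (N : 𝓞 L) ∈ P.asIdeal →
        (ordAt P x).natAbs ≤ k := by
      intro P hP
      exact Finset.single_le_sum (f := fun Q : UrS L N => (ordAt Q.1 x).natAbs)
        (fun _ _ => Nat.zero_le _) (Finset.mem_univ (α := UrS L N) ⟨P, hP⟩)
    have key : ∀ y : Lˣ, (∀ P : HeightOneSpectrum (𝓞 L), (N : 𝓞 L) ∉ P.asIdeal →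
        ordAt P y = 0) → (∀ P : HeightOneSpectrum (𝓞 L), (N : 𝓞 L) ∈ P.asIdeal →
        (ordAt P y).natAbs ≤ k) → IsIntegral ℤ ((N : L) ^ k * (y : L)) := by
      intro y hy0 hyk
      have h1 : ((N : L) ^ k * (y : L)) = ((cseNat L N hN ^ k * y : Lˣ) : L) := by
        simp [cseNat]
      rw [h1]
      apply cse_isIntegral_of_ordAt_nonneg
      intro v
      rw [ordAt_mul, cse_ordAt_pow]
      by_cases hv : (N : 𝓞 L) ∈ v.asIdeal
      · have h2 := cse_ordAt_nat_pos N hN v hv
        have h3 := hyk v hv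
        have h4 : (k : ℤ) * 1 ≤ k * ordAt v (cseNat L N hN) :=
          mul_le_mul_of_nonneg_left (by omega) (by positivity)
        omega
      · rw [hy0 v hv, add_zero]
        exact mul_nonneg (by positivity) (cse_ordAt_nat_nonneg N hN v)
    refine ⟨k, key x hx hkP, key x⁻¹ ?_ ?_⟩
    · intro P hP
      rw [ordAt_inv, hx P hP, neg_zero]
    · intro P hP
      rw [ordAt_inv, Int.natAbs_neg]
      exact hkP P hP

end Ord

section Exact

variable (S : Finset Nat.Primes) (L : Type) [Field L] [NumberField L]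

lemma cse_divHom_eq_zero_iff (x : Additive Lˣ) :
    divHom S L x = 0 ↔ Additive.toMul x ∈ nUnits (∏ q ∈ S, (q : ℕ)) L := by
  have hN : (∏ q ∈ S, (q : ℕ)) ≠ 0 := sProd_ne_zero S
  rw [cse_mem_nUnits_iff _ hN]
  constructor
  · intro h P hP
    have h1 : divHom S L x (⟨P, hP⟩ : OffS S L) = (0 : DivS S L) (⟨P, hP⟩ : OffS S L) := by
      rw [h]
    rw [divHom_apply] at h1
    exact h1
  · intro h
    ext P
    rw [divHom_apply]
    exact h P.1 P.2

/-- Exactness at `J_L`. -/
lemma cse_ker_csOfJ : LinearMap.ker (csOfJ S L) = LinearMap.range (jlDiagUnits S L) := by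
  ext j
  rw [LinearMap.mem_ker, csOfJ_apply, Submodule.mkQ_apply, Submodule.Quotient.mk_eq_zero]
  constructor
  · rintro ⟨x, hx⟩
    have h1 : Additive.ofMul (jlDiag S L (Additive.toMul x)) = j := congrArg Prod.fst hx
    have h2 : divHom S L x = 0 := congrArg Prod.snd hx
    exact ⟨Additive.ofMul ⟨Additive.toMul x, (cse_divHom_eq_zero_iff S L x).1 h2⟩, h1⟩
  · rintro ⟨u, rfl⟩
    refine ⟨Additive.ofMul ((Additive.toMul u : nUnits (∏ q ∈ S, (q : ℕ)) L) : Lˣ), ?_⟩
    apply Prod.ext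
    · rfl
    · exact (cse_divHom_eq_zero_iff S L _).2 (Additive.toMul u).2

/-- `Div_S(L) → C_S(L) / J_L`. -/
noncomputable def cseDivQ : DivS S L →ₗ[ℤ] CS S L ⧸ LinearMap.range (csOfJ S L) :=
  (LinearMap.range (csOfJ S L)).mkQ ∘ₗ csOfDiv S L

lemma cseDivQ_surjective : Function.Surjective (cseDivQ S L) := by
  intro c
  obtain ⟨c, rfl⟩ := Submodule.mkQ_surjective _ c
  obtain ⟨⟨j, d⟩, rfl⟩ := Submodule.mkQ_surjective _ c
  refine ⟨d, ?_⟩
  show (LinearMap.range (csOfJ S L)).mkQ (csOfDiv S L d) = _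
  rw [eq_comm, ← sub_eq_zero, ← map_sub, Submodule.mkQ_apply, Submodule.Quotient.mk_eq_zero]
  refine ⟨j, ?_⟩
  rw [csOfJ_apply, csOfDiv_apply, ← map_sub]
  congr 1
  simp

lemma cseDivQ_eq_zero_of_principal (x : Lˣ) :
    cseDivQ S L (divHom S L (Additive.ofMul x)) = 0 := by
  show (LinearMap.range (csOfJ S L)).mkQ (csOfDiv S L _) = 0
  rw [Submodule.mkQ_apply, Submodule.Quotient.mk_eq_zero]
  refine ⟨-(Additive.ofMul (jlDiag S L x)), ?_⟩
  rw [csOfJ_apply, csOfDiv_apply, eq_comm, ← sub_eq_zero, ← map_sub, Submodule.mkQ_apply,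
    Submodule.Quotient.mk_eq_zero]
  refine ⟨Additive.ofMul x, ?_⟩
  apply Prod.ext
  · show Additive.ofMul (jlDiag S L x) = 0 - -(Additive.ofMul (jlDiag S L x))
    simp
  · show divHom S L (Additive.ofMul x) = divHom S L (Additive.ofMul x) - 0
    simp

/-- The class of a divisor away from `S`. -/
noncomputable def cseClass : Multiplicative (DivS S L) →* ClassGroup (𝓞 L) :=
  classHom L (fun P : OffS S L => P.1)

lemma cseDivQ_eq_of_class_eq (d d' : DivS S L)
    (h : cseClass S L (Multiplicative.ofAdd d) = cseClass S L (Multiplicative.ofAdd d')) :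
    cseDivQ S L d = cseDivQ S L d' := by
  have hker : Multiplicative.ofAdd (d - d') ∈ (cseClass S L).ker := by
    rw [MonoidHom.mem_ker, ofAdd_sub, map_div, h, div_self']
  obtain ⟨x, hx, -⟩ := exists_ordAt_eq_of_mem_ker (K := L) (fun P : OffS S L => P.1)
    Subtype.val_injective _ hker
  have h1 : divHom S L (Additive.ofMul x) = d - d' := by
    ext P
    rw [divHom_apply]
    exact hx P
  have h2 := cseDivQ_eq_zero_of_principal S L x
  rw [h1, map_sub, sub_eq_zero] at h2
  exact h2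

lemma cse_finite : Finite (CS S L ⧸ LinearMap.range (csOfJ S L)) := by
  classical
  let g : ClassGroup (𝓞 L) → CS S L ⧸ LinearMap.range (csOfJ S L) := fun c =>
    if h : ∃ d : DivS S L, cseClass S L (Multiplicative.ofAdd d) = c then
      cseDivQ S L h.choose else 0
  refine Finite.of_surjective g ?_
  intro q
  obtain ⟨d, rfl⟩ := cseDivQ_surjective S L q
  refine ⟨cseClass S L (Multiplicative.ofAdd d), ?_⟩
  have h : ∃ d' : DivS S L, cseClass S L (Multiplicative.ofAdd d') =
      cseClass S L (Multiplicative.ofAdd d) := ⟨d, rfl⟩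
  show (if h : ∃ d' : DivS S L, cseClass S L (Multiplicative.ofAdd d') =
      cseClass S L (Multiplicative.ofAdd d) then cseDivQ S L h.choose else 0) = _
  rw [dif_pos h]
  exact cseDivQ_eq_of_class_eq S L _ _ h.choose_spec

end Exact

/-- **CS-exact.** -/
theorem stmtCSExact : StmtCSExact := by
  intro S L _ _
  exact ⟨cse_ker_csOfJ S L, cse_finite S L⟩

end Fermat.Agent.PT.G
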