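/-
Project PT — shared model, piece **C-descent** (helper63): if `L / K` is Galois and unramified
outside `S ≠ ∅`, the `Gal(L/K)`-invariants of `C_S(L)` are the image of `C_S(K)`
(Hilbert 90 + invariants of `J_L` and of `Div_S(L)`).
-/
import Fermat.Agent.PT.G.Plan2

set_option autoImplicit false

namespace Fermat.Agent.PT.G

open NumberField IsDedekindDomain Fermat.Agent.PT.G1 groupCohomology

section

variable (S : Finset Nat.Primes) {K L : Type} [Field K] [NumberField K] [Field L] [NumberField L]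
  [Algebra K L]

/-- An element of `Gal(L/K)` as an automorphism of `L` over `ℚ`. -/
def galToAut (τ : L ≃ₐ[K] L) : L ≃ₐ[ℚ] L := τ.restrictScalars ℚ

@[simp] lemma galToAut_apply (τ : L ≃ₐ[K] L) (x : L) : galToAut τ x = τ x := rfl

lemma galToAut_fixes (τ : L ≃ₐ[K] L) (x : K) :
    galToAut τ (algebraMap K L x) = algebraMap K L x := τ.commutes x

lemma galToAut_mul (τ τ' : L ≃ₐ[K] L) : galToAut (τ * τ') = galToAut τ * galToAut τ' := rfl

/-- An automorphism of `L` fixing `K` as an element of `Gal(L/K)`. -/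
def autToGal (σ : L ≃ₐ[ℚ] L) (h : ∀ x : K, σ (algebraMap K L x) = algebraMap K L x) :
    L ≃ₐ[K] L :=
  { (σ : L ≃+* L) with commutes' := h }

lemma galToAut_autToGal (σ : L ≃ₐ[ℚ] L)
    (h : ∀ x : K, σ (algebraMap K L x) = algebraMap K L x) : galToAut (autToGal σ h) = σ := by
  ext x; rfl

variable (L) in
/-- `Lˣ → J_L × Div_S(L)` is injective when `S ≠ ∅`. -/
lemma iotaHom_injective (hS : S.Nonempty) : Function.Injective (iotaHom S L) := by
  obtain ⟨q⟩ := hS.coe_sort
  intro u v huv
  have h1 : (jlDiag S L) (Additive.toMul u) = (jlDiag S L) (Additive.toMul v) :=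
    congrArg (fun y : Additive (JL S L) × DivS S L => Additive.toMul y.1) huv
  have h2 := congrFun h1 q
  have h3 : ((Algebra.TensorProduct.includeRight :
      L →ₐ[ℚ] semiAlg ((q : Nat.Primes) : ℕ) L) ((Additive.toMul u : Lˣ) : L)) =
      ((Algebra.TensorProduct.includeRight :
      L →ₐ[ℚ] semiAlg ((q : Nat.Primes) : ℕ) L) ((Additive.toMul v : Lˣ) : L)) :=
    congrArg Units.val h2
  have h4 := (Algebra.TensorProduct.includeRight :
      L →ₐ[ℚ] semiAlg ((q : Nat.Primes) : ℕ) L).toRingHom.injective h3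
  exact Additive.toMul.injective (Units.ext h4)

lemma jdEnd_sub (σ : L ≃ₐ[ℚ] L) (y z : Additive (JL S L) × DivS S L) :
    jdEnd S σ (y - z) = jdEnd S σ y - jdEnd S σ z := map_sub _ _ _

end

/-- **C-descent** from D-semi and D-div. -/
theorem stmtCSDescent_of (hJ : StmtSemiInv) (hD : StmtDivInv) : StmtCSDescent := by
  intro S K L _ _ _ _ _ _ hS hun c hc
  obtain ⟨y, rfl⟩ := Submodule.mkQ_surjective _ c
  -- the cocycle
  have hmem : ∀ τ : L ≃ₐ[K] L, jdEnd S (galToAut τ) y - y ∈ LinearMap.range (iotaHom S L) := by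
    intro τ
    have h := hc (galToAut τ) (galToAut_fixes τ)
    have h' : csMk S L (jdEnd S (galToAut τ) y) = csMk S L y := h
    exact (Submodule.Quotient.eq _).1 h'
  choose f hf using hmem
  have hinj := iotaHom_injective S L hS
  have hcoc : ∀ τ τ' : L ≃ₐ[K] L,
      f (τ * τ') = unitsEnd ((galToAut τ : L ≃ₐ[ℚ] L) : L →* L) (f τ') + f τ := by
    intro τ τ'
    apply hinj
    rw [map_add, iotaHom_equivariant, hf, hf, hf, galToAut_mul, jdEnd_mul, jdEnd_sub]
    abel
  have hF : IsMulCocycle₁ (fun τ : L ≃ₐ[K] L => (Additive.toMul (f τ) : Lˣ)) := by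
    intro τ τ'
    have := hcoc τ τ'
    exact congrArg Additive.toMul this
  obtain ⟨β, hβ⟩ := isMulCoboundary₁_of_isMulCocycle₁_of_aut_to_units _ hF
  have hβ' : ∀ τ : L ≃ₐ[K] L,
      f τ = unitsEnd ((galToAut τ : L ≃ₐ[ℚ] L) : L →* L) (Additive.ofMul β) - Additive.ofMul β := by
    intro τ
    have := hβ τ
    exact congrArg Additive.ofMul this.symm
  -- the invariant representative
  set y' : Additive (JL S L) × DivS S L := y - iotaHom S L (Additive.ofMul β) with hy'
  have hinv : ∀ σ : L ≃ₐ[ℚ] L, (∀ x : K, σ (algebraMap K L x) = algebraMap K L x) →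
      jdEnd S σ y' = y' := by
    intro σ hσ
    have h1 := hf (autToGal σ hσ)
    rw [galToAut_autToGal] at h1
    have h2 := hβ' (autToGal σ hσ)
    rw [galToAut_autToGal] at h2
    rw [hy', jdEnd_sub, ← iotaHom_equivariant]
    have h3 : iotaHom S L (unitsEnd ((σ : L ≃ₐ[ℚ] L) : L →* L) (Additive.ofMul β)) =
        iotaHom S L (f (autToGal σ hσ)) + iotaHom S L (Additive.ofMul β) := by
      rw [h2, map_sub]; abel
    rw [h3, h1]
    abel
  have hyc : csMk S L y' = csMk S L y := by
    rw [hy', map_sub]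
    have : csMk S L (iotaHom S L (Additive.ofMul β)) = 0 :=
      (Submodule.Quotient.mk_eq_zero _).2 ⟨_, rfl⟩
    rw [this, sub_zero]
  -- descend the two components
  have hJinv : ∀ q : ↥S, ∃ b : (semiAlg ((q : Nat.Primes) : ℕ) K)ˣ,
      semiIncl K L ((q : Nat.Primes) : ℕ) (b : semiAlg ((q : Nat.Primes) : ℕ) K) =
        ((Additive.toMul y'.1 : JL S L) q : semiAlg ((q : Nat.Primes) : ℕ) L) := by
    intro q
    apply hJ ((q : Nat.Primes) : ℕ) K L ((Additive.toMul y'.1 : JL S L) q)
    intro σ hσ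
    have h := congrArg (fun z : Additive (JL S L) × DivS S L => (Additive.toMul z.1 : JL S L) q)
      (hinv σ hσ)
    exact congrArg Units.val h
  choose b hb using hJinv
  obtain ⟨d₀, hd₀⟩ := hD S K L hun y'.2 (fun σ hσ =>
    congrArg (fun z : Additive (JL S L) × DivS S L => z.2) (hinv σ hσ))
  refine ⟨csMk S K (Additive.ofMul (b : JL S K), d₀), ?_⟩
  rw [csMap_mk, ← hyc]
  congr 1
  apply Prod.ext
  · apply Additive.toMul.injective
    funext q
    apply Units.ext
    exact hb q
  · exact hd₀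

end Fermat.Agent.PT.G
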