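/-
Project PT — PT-G / D-div (helper56): for `L / K` Galois and unramified outside `S`, the
`Gal(L/K)`-invariant divisors of `L` off `S` come from `K`.
-/
import Fermat.Agent.PT.G.Plan2

set_option autoImplicit false

namespace Fermat.Agent.PT.G

open NumberField IsDedekindDomain Fermat.Agent.PT.G1 Fermat.Agent.PT.X

open scoped Pointwise

section DivInv

variable (S : Finset Nat.Primes) {K L : Type} [Field K] [Field L] [NumberField L]
  [Algebra K L]

/-- An element of `Gal(L/K)` as an element of `Aut(L)`. -/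
noncomputable def dinvAut (τ : L ≃ₐ[K] L) : L ≃ₐ[ℚ] L :=
  { (τ : L ≃+* L) with
    commutes' := fun r => by
      show τ (algebraMap ℚ L r) = algebraMap ℚ L r
      exact map_ratCast τ r }

@[simp] lemma dinvAut_apply (τ : L ≃ₐ[K] L) (x : L) : dinvAut τ x = τ x := rfl

lemma dinvAut_fixes (τ : L ≃ₐ[K] L) (x : K) :
    dinvAut τ (algebraMap K L x) = algebraMap K L x := τ.commutes x

lemma dinv_primeMap_asIdeal (τ : L ≃ₐ[K] L) (P : HeightOneSpectrum (𝓞 L)) :
    (primeMap (dinvAut τ) P).asIdeal = τ • P.asIdeal := by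
  ext x
  rw [mem_primeMap, Ideal.mem_pointwise_smul_iff_inv_smul_mem]
  have h : RingOfIntegers.mapRingEquiv (((dinvAut τ).symm : L ≃ₐ[ℚ] L) : L ≃+* L) x = τ⁻¹ • x := by
    apply RingOfIntegers.ext
    rfl
  rw [h]

variable [NumberField K] [IsGalois K L]

/-- `Gal(L/K)` is transitive on the primes of `L` over a prime of `K`. -/
lemma dinv_exists_primeMap_eq (P P' : HeightOneSpectrum (𝓞 L))
    (h : primeUnder K P = primeUnder K P') :
    ∃ τ : L ≃ₐ[K] L, primeMap (dinvAut τ) P = P' := by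
  haveI h1 : P.asIdeal.LiesOver (primeUnder K P).asIdeal := primeUnder_liesOver K P
  haveI h2 : P'.asIdeal.LiesOver (primeUnder K P).asIdeal := by
    rw [h]; exact primeUnder_liesOver K P'
  haveI := P.isPrime
  haveI := P'.isPrime
  obtain ⟨τ, hτ⟩ := Ideal.exists_smul_eq_of_isGaloisGroup (primeUnder K P).asIdeal
    P.asIdeal P'.asIdeal (L ≃ₐ[K] L)
  refine ⟨τ, HeightOneSpectrum.ext ?_⟩
  rw [dinv_primeMap_asIdeal, hτ]

/-- An invariant divisor is constant on the fibres of `offUnder`. -/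
lemma dinv_const (d : DivS S L)
    (hd : ∀ σ : L ≃ₐ[ℚ] L, (∀ x : K, σ (algebraMap K L x) = algebraMap K L x) →
      divEnd S σ d = d) (P P' : OffS S L) (h : offUnder S K P = offUnder S K P') :
    d P = d P' := by
  have h0 : primeUnder K P.1 = primeUnder K P'.1 := congrArg Subtype.val h
  obtain ⟨τ, hτ⟩ := dinv_exists_primeMap_eq (K := K) P.1 P'.1 h0
  have h1 : offEquiv S (dinvAut τ) P = P' := Subtype.ext hτ
  have h2 := divEnd_apply S (dinvAut τ) d P
  rw [hd (dinvAut τ) (dinvAut_fixes τ), h1] at h2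
  exact h2.symm

end DivInv

/-- **D-div.** -/
theorem stmtDivInv : StmtDivInv := by
  classical
  intro S K L _ _ _ _ _ _ hun d hd
  let f : OffS S K → ℤ := fun 𝔭 =>
    if h : ∃ P : OffS S L, offUnder S K P = 𝔭 then d h.choose else 0
  have hf : ∀ 𝔭, f 𝔭 ≠ 0 → 𝔭 ∈ d.support.image (offUnder S K) := by
    intro 𝔭 h𝔭
    by_cases h : ∃ P : OffS S L, offUnder S K P = 𝔭
    · have h1 : f 𝔭 = d h.choose := dif_pos h
      rw [h1] at h𝔭
      exact Finset.mem_image.2 ⟨h.choose, Finsupp.mem_support_iff.2 h𝔭, h.choose_spec⟩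
    · have h1 : f 𝔭 = 0 := dif_neg h
      exact absurd h1 h𝔭
  refine ⟨Finsupp.onFinset _ f hf, ?_⟩
  ext P
  rw [divMap_apply, hun P, Nat.cast_one, one_mul, Finsupp.onFinset_apply]
  have h : ∃ P' : OffS S L, offUnder S K P' = offUnder S K P := ⟨P, rfl⟩
  have h1 : f (offUnder S K P) = d h.choose := dif_pos h
  rw [h1]
  exact dinv_const S d hd _ _ h.choose_spec

end Fermat.Agent.PT.G
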