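/-
Project PT — PT-G / D-semi (helper59): for `L / K` Galois, the invariants of `Gal(L/K)` in
`(ℚ_q ⊗ L)ˣ` are the image of `(ℚ_q ⊗ K)ˣ`.

Generic part (`semiInv_mem_range`): for vector spaces over a field `F` and a set `G` of
endomorphisms of `L` whose common fixed points are the image of `ι : K → L`, the elements of
`A ⊗ L` fixed by all `1 ⊗ σ` are the image of `A ⊗ K` (coordinates w.r.t. a basis of `A`).
-/
import Fermat.Agent.PT.G.Plan2

set_option autoImplicit false

namespace Fermat.Agent.PT.G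

open NumberField Fermat.Agent.PT.G1 TensorProduct

section Generic

variable {F A K L : Type*} [Field F] [AddCommGroup A] [Module F A] [AddCommGroup K] [Module F K]
  [AddCommGroup L] [Module F L]

/-- The coordinates w.r.t. a basis of the left factor are natural in the right factor. -/
lemma semiInv_coord_nat {ι : Type*} [DecidableEq ι] (ℬ : Module.Basis ι F A) (f : K →ₗ[F] L)
    (x : A ⊗[F] K) (i : ι) :
    TensorProduct.equivFinsuppOfBasisLeft ℬ (f.lTensor A x) i =
      f (TensorProduct.equivFinsuppOfBasisLeft ℬ x i) := by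
  induction x using TensorProduct.induction_on with
  | zero => simp
  | tmul m n =>
    rw [LinearMap.lTensor_tmul, TensorProduct.equivFinsuppOfBasisLeft_apply_tmul_apply,
      TensorProduct.equivFinsuppOfBasisLeft_apply_tmul_apply, map_smul]
  | add x y hx hy =>
    rw [map_add, map_add, Finsupp.add_apply, hx, hy, map_add, Finsupp.add_apply, map_add]

/-- `A ⊗ K → A ⊗ L` is injective if `K → L` is. -/
lemma semiInv_lTensor_injective (f : K →ₗ[F] L) (hf : Function.Injective f) :
    Function.Injective (f.lTensor A) := by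
  classical
  intro x y hxy
  apply (TensorProduct.equivFinsuppOfBasisLeft (Module.Basis.ofVectorSpace F A)).injective
  ext i
  apply hf
  rw [← semiInv_coord_nat, ← semiInv_coord_nat, hxy]

/-- The invariants of `A ⊗ L` under a set `G` of endomorphisms of `L` with fixed points `ι(K)`
are `A ⊗ K`. -/
theorem semiInv_mem_range (ι : K →ₗ[F] L) (G : Set (L →ₗ[F] L))
    (hfix : ∀ l : L, (∀ σ ∈ G, σ l = l) → l ∈ LinearMap.range ι)
    (a : A ⊗[F] L) (ha : ∀ σ ∈ G, LinearMap.lTensor A σ a = a) :
    a ∈ LinearMap.range (ι.lTensor A) := by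
  classical
  set ℬ := Module.Basis.ofVectorSpace F A with hℬ
  set c := TensorProduct.equivFinsuppOfBasisLeft ℬ a with hc
  have hci : ∀ i, c i ∈ LinearMap.range ι := by
    intro i
    apply hfix
    intro σ hσ
    rw [hc, ← semiInv_coord_nat, ha σ hσ]
  choose k hk using hci
  refine ⟨∑ i ∈ c.support, ℬ i ⊗ₜ[F] k i, ?_⟩
  rw [map_sum]
  have h1 : ∀ i ∈ c.support, (ι.lTensor A) (ℬ i ⊗ₜ[F] k i) = ℬ i ⊗ₜ[F] c i := by
    intro i _
    rw [LinearMap.lTensor_tmul, hk]
  rw [Finset.sum_congr rfl h1]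
  have h2 := TensorProduct.equivFinsuppOfBasisLeft_symm_apply ℬ c
  rw [hc, LinearEquiv.symm_apply_apply] at h2
  rw [h2]
  rfl

end Generic

section Semi

variable (q : ℕ) [Fact q.Prime] (K L : Type) [Field K] [NumberField K] [Field L] [NumberField L]
  [Algebra K L]

lemma semiMap_eq_lTensor (σ : L ≃ₐ[ℚ] L) (x : semiAlg q L) :
    semiMap q σ x = LinearMap.lTensor ℚ_[q] (σ.toLinearMap) x := by
  induction x using TensorProduct.induction_on with
  | zero => simp
  | tmul m n => simp [semiMap]
  | add x y hx hy => rw [map_add, map_add, hx, hy]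

lemma semiIncl_eq_lTensor (x : semiAlg q K) :
    semiIncl K L q x = LinearMap.lTensor ℚ_[q] (ratIncl K L).toLinearMap x := by
  induction x using TensorProduct.induction_on with
  | zero => simp
  | tmul m n => simp [semiIncl]
  | add x y hx hy => rw [map_add, map_add, hx, hy]

lemma semiIncl_injective : Function.Injective (semiIncl K L q) := by
  intro x y hxy
  rw [semiIncl_eq_lTensor, semiIncl_eq_lTensor] at hxy
  exact semiInv_lTensor_injective (ratIncl K L).toLinearMap
    (algebraMap K L).injective hxy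

/-- The invariants of `Gal(L/K)` in `ℚ_q ⊗ L` are the image of `ℚ_q ⊗ K`. -/
theorem semiInv_exists [IsGalois K L] (a : semiAlg q L)
    (ha : ∀ σ : L ≃ₐ[ℚ] L, (∀ x : K, σ (algebraMap K L x) = algebraMap K L x) →
      semiMap q σ a = a) :
    ∃ b : semiAlg q K, semiIncl K L q b = a := by
  have h := semiInv_mem_range (A := ℚ_[q]) (ratIncl K L).toLinearMap
    {φ | ∃ σ : L ≃ₐ[ℚ] L, (∀ x : K, σ (algebraMap K L x) = algebraMap K L x) ∧
      φ = σ.toLinearMap} ?_ a ?_
  · obtain ⟨b, hb⟩ := h
    exact ⟨b, by rw [semiIncl_eq_lTensor]; exact hb⟩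
  · intro l hl
    have h1 : l ∈ Set.range (algebraMap K L) := by
      rw [InfiniteGalois.mem_range_algebraMap_iff_fixed]
      intro τ
      have h2 := hl (τ.restrictScalars ℚ).toLinearMap
        ⟨τ.restrictScalars ℚ, fun x => τ.commutes x, rfl⟩
      exact h2
    obtain ⟨x, hx⟩ := h1
    exact ⟨x, hx⟩
  · rintro φ ⟨σ, hσ, rfl⟩
    rw [← semiMap_eq_lTensor]
    exact ha σ hσ

end Semi

/-- **D-semi**. -/
theorem stmtSemiInv : StmtSemiInv := by
  intro q _ K L _ _ _ _ _ _ a ha
  obtain ⟨b, hb⟩ := semiInv_exists q K L (a : semiAlg q L) ha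
  have ha' : ∀ σ : L ≃ₐ[ℚ] L, (∀ x : K, σ (algebraMap K L x) = algebraMap K L x) →
      semiMap q σ ((a⁻¹ : (semiAlg q L)ˣ) : semiAlg q L) = ((a⁻¹ : (semiAlg q L)ˣ) : semiAlg q L) := by
    intro σ hσ
    have h1 : Units.map (semiMap q σ : semiAlg q L →* semiAlg q L) a = a :=
      Units.ext (ha σ hσ)
    have h2 : Units.map (semiMap q σ : semiAlg q L →* semiAlg q L) a⁻¹ = a⁻¹ := by
      rw [map_inv, h1]
    exact congrArg Units.val h2
  obtain ⟨b', hb'⟩ := semiInv_exists q K L ((a⁻¹ : (semiAlg q L)ˣ) : semiAlg q L) ha'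
  have h1 : b * b' = 1 := by
    apply semiIncl_injective q K L
    rw [map_mul, hb, hb', map_one, Units.mul_inv]
  have h2 : b' * b = 1 := by rw [mul_comm, h1]
  exact ⟨⟨b, b', h1, h2⟩, hb⟩

end Fermat.Agent.PT.G
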