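/-
Project PT — PT-G / D-inj (helper59): `csMap S K L : C_S(K) → C_S(L)` is injective for `S ≠ ∅`.

If `(j, d) ∈ J_K × Div_S(K)` becomes `(diag a, div a)` in `J_L × Div_S(L)` with `a ∈ Lˣ`, then at a
place `q ∈ S` the element `1 ⊗ a` lies in the image of `ℚ_q ⊗ K`, hence `a ∈ K` (coordinates
w.r.t. a `ℚ`-basis of `ℚ_q`); `J_K → J_L` and `Div_S(K) → Div_S(L)` are injective.
-/
import Fermat.Agent.PT.G.SemiInv
import Fermat.Agent.PT.G.Reps

set_option autoImplicit false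

namespace Fermat.Agent.PT.G

open NumberField IsDedekindDomain Fermat.Agent.PT.G1 Fermat.Agent.PT.X TensorProduct

section Generic

variable {F A K L : Type*} [Field F] [AddCommGroup A] [Module F A] [AddCommGroup K] [Module F K]
  [AddCommGroup L] [Module F L]

/-- If `e ⊗ a` (`e ≠ 0`) lies in the image of `A ⊗ K → A ⊗ L`, then `a` lies in the image of
`K → L`. -/
lemma mapInj_mem_range_of_tmul (ι : K →ₗ[F] L) (e : A) (he : e ≠ 0) (a : L) (b : A ⊗[F] K)
    (hb : ι.lTensor A b = e ⊗ₜ[F] a) : a ∈ LinearMap.range ι := by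
  classical
  set ℬ := Module.Basis.ofVectorSpace F A with hℬ
  obtain ⟨i, hi⟩ : ∃ i, ℬ.repr e i ≠ 0 := by
    by_contra h
    rw [not_exists] at h
    have h : ∀ i, ℬ.repr e i = 0 := fun i => not_not.1 (h i)
    apply he
    apply ℬ.repr.injective
    ext i
    rw [h i, map_zero]
    rfl
  have h1 := semiInv_coord_nat ℬ ι b i
  rw [hb, TensorProduct.equivFinsuppOfBasisLeft_apply_tmul_apply] at h1
  refine ⟨(ℬ.repr e i)⁻¹ • (TensorProduct.equivFinsuppOfBasisLeft ℬ b i), ?_⟩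
  rw [map_smul, ← h1, smul_smul, inv_mul_cancel₀ hi, one_smul]

end Generic

section Main

variable (S : Finset Nat.Primes) (K L : Type) [Field K] [NumberField K] [Field L] [NumberField L]
  [Algebra K L]

/-- If `1 ⊗ a ∈ ℚ_q ⊗ L` comes from `ℚ_q ⊗ K`, then `a ∈ K`. -/
lemma mapInj_mem_range (q : ℕ) [Fact q.Prime] (a : L) (b : semiAlg q K)
    (hb : semiIncl K L q b = (1 : ℚ_[q]) ⊗ₜ[ℚ] a) : a ∈ Set.range (algebraMap K L) := by
  rw [semiIncl_eq_lTensor] at hb
  obtain ⟨x, hx⟩ := mapInj_mem_range_of_tmul (ratIncl K L).toLinearMap (1 : ℚ_[q]) one_ne_zero a b hb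
  exact ⟨x, hx⟩

lemma mapInj_jlMap_injective : Function.Injective (jlMap S K L) := by
  intro x y hxy
  funext q
  apply Units.ext
  apply semiIncl_injective ((q : Nat.Primes) : ℕ) K L
  have h := congrArg (fun z : JL S L => ((z q : (semiAlg ((q : Nat.Primes) : ℕ) L)ˣ) :
    semiAlg ((q : Nat.Primes) : ℕ) L)) hxy
  exact h

variable {L} in
/-- Every prime of `K` off `S` lies under a prime of `L` off `S`. -/
lemma mapInj_exists_offUnder (𝔭 : OffS S K) : ∃ P : OffS S L, offUnder S K P = 𝔭 := by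
  have : 𝔭.1.asIdeal.IsMaximal := 𝔭.1.isMaximal
  obtain ⟨Q, hQmax, hQ⟩ := Ideal.exists_maximal_ideal_liesOver_of_isIntegral (S := 𝓞 L) 𝔭.1.asIdeal
  have hQ' : Q.under (𝓞 K) = 𝔭.1.asIdeal := ((Ideal.liesOver_iff _ _).1 hQ).symm
  have hQne : Q ≠ ⊥ := by
    rintro rfl
    apply 𝔭.1.ne_bot
    rw [← hQ', eq_bot_iff]
    intro x hx
    have h1 : algebraMap (𝓞 K) (𝓞 L) x = 0 := hx
    have h2 := (FaithfulSMul.algebraMap_injective (𝓞 K) (𝓞 L)) (h1.trans (map_zero _).symm)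
    exact h2
  have hP : primeUnder K (⟨Q, hQmax.isPrime, hQne⟩ : HeightOneSpectrum (𝓞 L)) = 𝔭.1 :=
    HeightOneSpectrum.ext hQ'
  refine ⟨⟨⟨Q, hQmax.isPrime, hQne⟩, ?_⟩, Subtype.ext hP⟩
  intro h
  apply 𝔭.2
  rw [← hP]
  exact (natCast_mem_primeUnder_iff K L _ _).2 h

lemma mapInj_divMap_injective : Function.Injective (divMap S K L) := by
  intro d d' h
  ext 𝔭
  obtain ⟨P, rfl⟩ := mapInj_exists_offUnder S K (L := L) 𝔭
  have h1 := DFunLike.congr_fun h P
  rw [divMap_apply, divMap_apply] at h1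
  exact mul_left_cancel₀ (Nat.cast_ne_zero.2 (ramIdx_ne_zero K P.1)) h1

lemma mapInj_jdMap_injective : Function.Injective (jdMap S K L) := by
  intro y y' h
  apply Prod.ext
  · have h1 : jlMapLin S K L y.1 = jlMapLin S K L y'.1 := congrArg Prod.fst h
    have h2 := mapInj_jlMap_injective S K L (congrArg Additive.toMul h1)
    exact congrArg Additive.ofMul h2
  · exact mapInj_divMap_injective S K L (congrArg Prod.snd h)

/-- The elements of `J_K × Div_S(K)` that become principal in `L` are principal (`S ≠ ∅`). -/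
theorem mapInj_principal (hS : S.Nonempty) (y : Additive (JL S K) × DivS S K)
    (hy : csMk S L (jdMap S K L y) = 0) : csMk S K y = 0 := by
  rw [csMk_eq_zero_iff] at hy
  obtain ⟨a, ha⟩ := hy
  obtain ⟨q⟩ : Nonempty ↥S := hS.to_subtype
  -- the `q`-component
  have h1 : jlMap S K L (Additive.toMul y.1) = jlDiag S L a :=
    congrArg Additive.toMul (congrArg Prod.fst ha)
  have h2 : semiIncl K L ((q : Nat.Primes) : ℕ)
      ((Additive.toMul y.1 q : (semiAlg ((q : Nat.Primes) : ℕ) K)ˣ) :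
        semiAlg ((q : Nat.Primes) : ℕ) K) =
      (1 : ℚ_[((q : Nat.Primes) : ℕ)]) ⊗ₜ[ℚ] (a : L) :=
    congrArg (fun z : JL S L => ((z q : (semiAlg ((q : Nat.Primes) : ℕ) L)ˣ) :
      semiAlg ((q : Nat.Primes) : ℕ) L)) h1
  obtain ⟨a₀, ha₀⟩ := mapInj_mem_range K L _ (a : L) _ h2
  have ha₀ne : a₀ ≠ 0 := by
    rintro rfl
    rw [map_zero] at ha₀
    exact a.ne_zero ha₀.symm
  have hu : Units.map (algebraMap K L : K →* L) (Units.mk0 a₀ ha₀ne) = a := Units.ext ha₀
  rw [csMk_eq_zero_iff']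
  refine ⟨Additive.ofMul (Units.mk0 a₀ ha₀ne), ?_⟩
  apply mapInj_jdMap_injective S K L
  rw [jdMap_iotaHom, ha]
  show iotaHom S L (Additive.ofMul (Units.map (algebraMap K L : K →* L) (Units.mk0 a₀ ha₀ne))) = _
  rw [hu]
  rfl

end Main

/-- **D-inj**: `C_S(K) → C_S(L)` is injective (`S ≠ ∅`). -/
theorem stmtCSMapInj : StmtCSMapInj := by
  intro S K L _ _ _ _ _ hS
  rw [injective_iff_map_eq_zero]
  intro c hc
  obtain ⟨y, rfl⟩ := csMk_surjective S K c
  rw [csMap_mk] at hc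
  exact mapInj_principal S K L hS y hc

end Fermat.Agent.PT.G
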