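/-
Project PT — shared model, piece **D-unram** (helper26): for `L / K` Galois of prime degree `p`
and `σ ∈ Aut(L)` fixing `K`, `UnramOff S σ` (`σ` in no inertia group off `S`) implies that
`L / K` is unramified outside `S` (`stmtUnramOff`).

Route: `|I_P| = e(P | 𝔭)` (Mathlib `Ideal.card_inertia_eq_ramificationIdxIn`), `I_P` is a subgroup
of a group of prime order which does not contain `σ`, hence trivial.
-/
import Fermat.Agent.PT.G.Descent

set_option autoImplicit false
set_option linter.unusedSectionVars false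
set_option linter.style.haveILetI false

namespace Fermat.Agent.PT.G

open NumberField IsDedekindDomain Fermat.Agent.PT.G1

section

variable {K L : Type} [Field K] [NumberField K] [Field L] [NumberField L] [Algebra K L]
  [IsGalois K L]

/-- The order of the inertia group of `P` in `Gal(L/K)` is the ramification index `ramIdx K P`. -/
theorem uo_card_inertia (P : HeightOneSpectrum (𝓞 L)) :
    Nat.card (P.asIdeal.inertia (L ≃ₐ[K] L)) = ramIdx K P := by
  haveI : P.asIdeal.IsPrime := P.isPrime
  haveI : (primeUnder K P).asIdeal.IsPrime := (primeUnder K P).isPrime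
  haveI : P.asIdeal.LiesOver (primeUnder K P).asIdeal := primeUnder_liesOver K P
  have h1 : Nat.card (P.asIdeal.inertia (L ≃ₐ[K] L)) =
      (primeUnder K P).asIdeal.ramificationIdxIn (𝓞 L) :=
    Ideal.card_inertia_eq_ramificationIdxIn (G := L ≃ₐ[K] L) (primeUnder K P).asIdeal P.asIdeal
  have h2 : (primeUnder K P).asIdeal.ramificationIdxIn (𝓞 L) = P.asIdeal.ramificationIdx (𝓞 K) :=
    Ideal.ramificationIdxIn_eq_ramificationIdx (primeUnder K P).asIdeal P.asIdeal (L ≃ₐ[K] L)
  have h3 : (primeUnder K P).asIdeal.ramificationIdx' P.asIdeal =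
      P.asIdeal.ramificationIdx (𝓞 K) :=
    Ideal.ramificationIdx'_eq_ramificationIdx (primeUnder K P).asIdeal P.asIdeal
      (primeUnder K P).ne_bot
  rw [h1, h2, ← h3]
  rfl

end

/-- **D-unram**. -/
theorem stmtUnramOff : StmtUnramOff := by
  intro p _ S K L _ _ _ _ _ _ σ hfix hdeg _ hun P
  have hp : p.Prime := Fact.out
  rw [← uo_card_inertia (K := K) P.1]
  have hG : Nat.card (L ≃ₐ[K] L) = p := by rw [IsGalois.card_aut_eq_finrank, hdeg]
  obtain ⟨x, hx⟩ := hun P
  have hτ : autToGal σ hfix ∉ P.1.asIdeal.inertia (L ≃ₐ[K] L) := fun h => hx (h x)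
  have hdvd := Subgroup.card_subgroup_dvd_card (P.1.asIdeal.inertia (L ≃ₐ[K] L))
  rw [hG] at hdvd
  rcases (Nat.dvd_prime hp).mp hdvd with h | h
  · exact h
  · exfalso
    apply hτ
    have htop : P.1.asIdeal.inertia (L ≃ₐ[K] L) = ⊤ := by
      haveI : Finite (L ≃ₐ[K] L) := inferInstance
      apply Subgroup.eq_top_of_card_eq
      rw [h, hG]
    rw [htop]
    exact Subgroup.mem_top _

end Fermat.Agent.PT.G
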