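/-
Project PT — the FIRST INEQUALITY for the class module `C_S(L)`: assembly of the PT-G1 pieces.
Remaining inputs: `StmtMaxSpecCount` (T-cnt) and `StmtCSExact` (CS-exact).
-/
import Fermat.Agent.PT.G.Plan
import Fermat.Agent.PT.G1.ClassHQ
import Fermat.Agent.PT.G1.FourTerm
import Fermat.Agent.PT.G1.Hexagon
import Fermat.Agent.PT.G1.Finite
import Fermat.Agent.PT.G1.UnitsHQ
import Fermat.Agent.PT.G1.Rank
import Fermat.Agent.PT.G1.UnitRank
import Fermat.Agent.PT.G1.UnitFixed
import Fermat.Agent.PT.G1.InfCount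
import Fermat.Agent.PT.G1.PrimeCount
import Fermat.Agent.PT.G1.JMain
import Fermat.Agent.PT.G1.TensorHQ
import Fermat.Agent.PT.G1.Orbit
import Fermat.Agent.PT.G1.LocalHQ
import Fermat.Agent.PT.G1.PrimeSplit
import Fermat.Agent.PT.L.CyclicFinal

set_option autoImplicit false

namespace Fermat.Agent.PT.G

open Fermat.Agent.PT.G1

/-- the rank formula, unconditional -/
theorem g1_rank : StmtRank := stmtRank_of stmtHexagon stmtFinite

/-- `h(E_{L,S}) = p ^ (f - 1)`, unconditional -/
theorem g1_unitsHQ : StmtUnitsHQ :=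
  stmtUnitsHQ_of g1_rank stmtUnitRank stmtUnitFixed stmtInfCount stmtPrimeCount

/-- `h(F'ˣ) = p` for local fields, unconditional -/
theorem g1_localHQ : StmtLocalHQ := stmtLocalHQ_of Fermat.Agent.PT.L.normIndex

/-- `h((ℚ_q ⊗ L)ˣ) = p ^ f_T`, unconditional -/
theorem g1_tensorHQ : StmtTensorHQ := stmtTensorHQ_of stmtOrbit g1_localHQ

/-- the four-term lemma, unconditional -/
theorem g1_fourTerm : StmtFourTerm := stmtFourTerm_of stmtHexagon stmtFinite

/-- `h(J_L) = p ^ f` from T-cnt -/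
theorem g1_jMain_of (hM : StmtMaxSpecCount) : StmtJMain :=
  stmtJMain_of stmtHexagon g1_tensorHQ hM stmtPrimeSplit

/-- C-main from T-cnt -/
theorem g1_classHQ_of (hM : StmtMaxSpecCount) : StmtClassHQ :=
  stmtClassHQ_of g1_fourTerm g1_unitsHQ (g1_jMain_of hM)

/-- **The first inequality** for `C_S(L)` from T-cnt and CS-exact. -/
theorem firstInequality_of (hM : StmtMaxSpecCount) (hE : StmtCSExact) : StmtCSHQ :=
  stmtCSHQ_of (g1_classHQ_of hM) hE

end Fermat.Agent.PT.G
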