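/-
Project PT — **the first inequality, unconditional**: for a number field `L`, `σ ∈ Aut(L)` of odd
prime order `p` and `S ≠ ∅`, the Herbrand quotient of the `S`-idèle class module `C_S(L)` is `p`.
-/
import Fermat.Agent.PT.G.FirstInequality
import Fermat.Agent.PT.G.Exact
import Fermat.Agent.PT.G1.MaxSpecCount

set_option autoImplicit false

namespace Fermat.Agent.PT.G

open Fermat.Agent.PT.G1

/-- `h(J_L) = p ^ f`, unconditional. -/
theorem g1_jMain : StmtJMain := g1_jMain_of stmtMaxSpecCount

/-- C-main, unconditional. -/
theorem g1_classHQ : StmtClassHQ := g1_classHQ_of stmtMaxSpecCount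

/-- **The first inequality**: `|ker(σ-1)/im N| = p · |ker N/im(σ-1)|` on `C_S(L)`, both finite. -/
theorem firstInequality : StmtCSHQ := firstInequality_of stmtMaxSpecCount stmtCSExact

end Fermat.Agent.PT.G
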