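/-
Project PT — shared model, piece **D-split** (helper26): for `L / K` cyclic of prime degree `p`
with generator `σ`, unramified outside `S`, and a prime `v` of `K` off `S` with a prime `w` of
degree one above it: `[v] = Σ_{i<p} σ^i [w]` in `Div_S(L)` (`stmtSplitNorm`).

Route: `Gal(L/K)` acts transitively on the primes over `v` (Mathlib), the stabiliser of `w` has
order `e f = 1` (Mathlib `Ideal.card_stabilizer_eq`), so `i ↦ σ^i w` is a bijection from
`{0, …, p-1}` onto the primes over `v`.
-/
import Fermat.Agent.PT.G.UnramOff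

set_option autoImplicit false
set_option linter.unusedSectionVars false
set_option linter.style.haveILetI false

namespace Fermat.Agent.PT.G

open NumberField IsDedekindDomain Fermat.Agent.PT.G1

open scoped Pointwise

section

variable (S : Finset Nat.Primes) {K L : Type} [Field K] [NumberField K] [Field L] [NumberField L]
  [Algebra K L]

/-- The action of `Aut(L)` on the generators of `Div_S(L)`. -/
theorem sn_divEnd_single (τ : L ≃ₐ[ℚ] L) (w : OffS S L) :
    divEnd S τ (Finsupp.single w 1) = Finsupp.single (offEquiv S τ w) 1 := by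
  unfold divEnd
  rw [LinearEquiv.coe_coe, Finsupp.domLCongr_single]

/-- `primeMap` of an element of `Gal(L/K)` is the pointwise action on ideals. -/
theorem sn_primeMap_eq_smul (τ : L ≃ₐ[K] L) (P : HeightOneSpectrum (𝓞 L)) :
    (primeMap (galToAut τ) P).asIdeal = τ • P.asIdeal := by
  rw [primeMap_asIdeal_eq_map, Ideal.pointwise_smul_def]
  rfl

/-- An element of `Gal(L/K)` restricts to the identity of `K`. -/
theorem sn_restricts (τ : L ≃ₐ[ℚ] L) (h : ∀ x : K, τ (algebraMap K L x) = algebraMap K L x) :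
    Restricts τ (1 : K ≃ₐ[ℚ] K) := fun x => h x

variable [IsGalois K L]

/-- The order of the decomposition group of `P` in `Gal(L/K)` is `1` if `e = f = 1`. -/
theorem sn_card_stabilizer (P : HeightOneSpectrum (𝓞 L)) (he : ramIdx K P = 1)
    (hf : Ideal.absNorm P.asIdeal = Ideal.absNorm (primeUnder K P).asIdeal) :
    Nat.card (MulAction.stabilizer (L ≃ₐ[K] L) P.asIdeal) = 1 := by
  haveI : P.asIdeal.IsPrime := P.isPrime
  haveI : (primeUnder K P).asIdeal.IsPrime := (primeUnder K P).isPrime
  haveI : P.asIdeal.LiesOver (primeUnder K P).asIdeal := primeUnder_liesOver K P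
  have h1 := Ideal.card_stabilizer_eq (G := L ≃ₐ[K] L) (primeUnder K P).asIdeal P.asIdeal
  have h2 : (primeUnder K P).asIdeal.ramificationIdxIn (𝓞 L) = 1 := by
    have := Ideal.card_inertia_eq_ramificationIdxIn (G := L ≃ₐ[K] L)
      (primeUnder K P).asIdeal P.asIdeal
    rw [← this, uo_card_inertia, he]
  have h3 : (primeUnder K P).asIdeal.inertiaDegIn (𝓞 L) = 1 := by
    rw [Ideal.inertiaDegIn_eq_inertiaDeg (primeUnder K P).asIdeal P.asIdeal (L ≃ₐ[K] L)]
    have h4 := Ideal.absNorm_pow_inertiaDeg (primeUnder K P).asIdeal P.asIdeal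
    rw [hf] at h4
    have h5 : 1 < Ideal.absNorm (primeUnder K P).asIdeal := by
      have h6 : Ideal.absNorm (primeUnder K P).asIdeal ≠ 1 := by
        rw [Ne, Ideal.absNorm_eq_one_iff]
        exact (primeUnder K P).isPrime.ne_top
      have h7 : Ideal.absNorm (primeUnder K P).asIdeal ≠ 0 := by
        rw [Ne, Ideal.absNorm_eq_zero_iff]
        exact (primeUnder K P).ne_bot
      omega
    have h8 : Ideal.absNorm (primeUnder K P).asIdeal ^ (P.asIdeal.inertiaDeg (𝓞 K)) =
        Ideal.absNorm (primeUnder K P).asIdeal ^ 1 := by rw [h4, pow_one]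
    exact Nat.pow_right_injective h5 h8
  rw [h1, h2, h3]

end

/-- **D-split**. -/
theorem stmtSplitNorm : StmtSplitNorm := by
  intro p _ S K L _ _ _ _ _ _ σ hfix hdeg hord hun v w hwv hnorm
  classical
  have hp : p.Prime := Fact.out
  set σ' : L ≃ₐ[K] L := autToGal σ hfix with hσ'
  have hσσ' : galToAut σ' = σ := galToAut_autToGal σ hfix
  have hG : Nat.card (L ≃ₐ[K] L) = p := by rw [IsGalois.card_aut_eq_finrank, hdeg]
  have hpow : ∀ i : ℕ, galToAut (σ' ^ i) = σ ^ i := by
    intro i
    induction i with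
    | zero => rfl
    | succ i ih => rw [pow_succ, pow_succ, galToAut_mul, ih, hσσ']
  have hinj : Function.Injective (galToAut : (L ≃ₐ[K] L) → (L ≃ₐ[ℚ] L)) := by
    intro a b hab
    ext x
    have := congrArg (fun f : L ≃ₐ[ℚ] L => f x) hab
    exact this
  have hord' : orderOf σ' = p := by
    have h1 : orderOf σ' ∣ p := hG ▸ orderOf_dvd_natCard σ'
    rcases (Nat.dvd_prime hp).mp h1 with h | h
    · exfalso
      rw [orderOf_eq_one_iff] at h
      have : σ = 1 := by rw [← hσσ', h]; rfl
      rw [this, orderOf_one] at hord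
      exact hp.one_lt.ne hord
    · exact h
  have hfixi : ∀ i : ℕ, ∀ x : K, (σ ^ i) (algebraMap K L x) = algebraMap K L x := by
    intro i x
    rw [← hpow]
    exact galToAut_fixes _ x
  -- the stabiliser of `w` is trivial
  have hstab : Nat.card (MulAction.stabilizer (L ≃ₐ[K] L) w.1.asIdeal) = 1 := by
    apply sn_card_stabilizer (K := K) w.1 (hun w)
    rw [hnorm, ← hwv]
    rfl
  have hstab' : ∀ τ : L ≃ₐ[K] L, τ • w.1.asIdeal = w.1.asIdeal → τ = 1 := by
    intro τ hτ
    have h1 : MulAction.stabilizer (L ≃ₐ[K] L) w.1.asIdeal = ⊥ := Subgroup.card_eq_one.mp hstab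
    have h2 : τ ∈ MulAction.stabilizer (L ≃ₐ[K] L) w.1.asIdeal := MulAction.mem_stabilizer_iff.mpr hτ
    rw [h1, Subgroup.mem_bot] at h2
    exact h2
  -- both sides, evaluated at `P`
  ext P
  rw [divMap_apply, hun P, Nat.cast_one, one_mul, Finsupp.coe_finsetSum, Finset.sum_apply]
  simp only [sn_divEnd_single, Finsupp.single_apply]
  by_cases hPv : offUnder S K P = v
  · rw [if_pos hPv.symm]
    -- transitivity
    haveI : P.1.asIdeal.IsPrime := P.1.isPrime
    haveI : w.1.asIdeal.IsPrime := w.1.isPrime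
    haveI : v.1.asIdeal.IsPrime := v.1.isPrime
    haveI : P.1.asIdeal.LiesOver v.1.asIdeal := by
      rw [← hPv]; exact primeUnder_liesOver K P.1
    haveI : w.1.asIdeal.LiesOver v.1.asIdeal := by
      rw [← hwv]; exact primeUnder_liesOver K w.1
    obtain ⟨τ, hτ⟩ := Ideal.exists_smul_eq_of_isGaloisGroup v.1.asIdeal w.1.asIdeal P.1.asIdeal
      (L ≃ₐ[K] L)
    have hτmem : τ ∈ Subgroup.zpowers σ' := by
      have htop : Subgroup.zpowers σ' = ⊤ := by
        apply zpowers_eq_top_of_prime_card hG
        intro h1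
        rw [h1, orderOf_one] at hord'
        exact hp.one_lt.ne hord'
      rw [htop]
      exact Subgroup.mem_top _
    rw [mem_zpowers_iff_mem_range_orderOf, hord', Finset.mem_image] at hτmem
    obtain ⟨i₀, hi₀, hτi⟩ := hτmem
    have hkey : ∀ i : ℕ, offEquiv S (σ ^ i) w = P ↔ σ' ^ i • w.1.asIdeal = P.1.asIdeal := by
      intro i
      rw [← sn_primeMap_eq_smul, hpow]
      constructor
      · intro h
        rw [← h]
        rfl
      · intro h
        exact Subtype.ext (HeightOneSpectrum.ext h)
    rw [Finset.sum_eq_single i₀]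
    · rw [if_pos]
      rw [hkey, hτi]
      exact hτ
    · intro i hi hne
      rw [if_neg]
      intro h
      apply hne
      have h1 : σ' ^ i • w.1.asIdeal = σ' ^ i₀ • w.1.asIdeal := by
        rw [(hkey i).mp h, hτi, hτ]
      -- `σ'^i = σ'^i₀`
      have h2 : (σ' ^ i₀)⁻¹ * σ' ^ i = 1 := by
        apply hstab'
        rw [mul_smul, h1, inv_smul_smul]
      have h3 : σ' ^ i = σ' ^ i₀ := by
        rw [inv_mul_eq_one] at h2
        exact h2.symm
      rw [Finset.mem_range] at hi hi₀
      exact pow_injOn_Iio_orderOf (by rw [hord']; exact hi) (by rw [hord']; exact hi₀) h3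
    · intro h
      exact absurd hi₀ h
  · rw [if_neg (fun h => hPv h.symm)]
    symm
    apply Finset.sum_eq_zero
    intro i _
    rw [if_neg]
    intro h
    apply hPv
    rw [← h, offUnder_offEquiv S (sn_restricts (σ ^ i) (hfixi i)), offEquiv_one, hwv]
    rfl

end Fermat.Agent.PT.G
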