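/-
Project PT — shared model, FINAL WIRING of the cyclic case (helper63), UNCONDITIONAL:
* `stmtCSDescent : StmtCSDescent`      Galois descent `C_S(L)^{Gal(L/K)} = C_S(K)`,
* `secondInequality : StmtCSH0`        `|Ĥ⁰(⟨σ⟩, C_S(L))| ≤ p`,
* `csCyclic : StmtCSCyclic`            `|Ĥ⁰(⟨σ⟩, C_S(L))| = p`, `Ĥ¹(⟨σ⟩, C_S(L)) = 0`,
and the variants `secondInequalityRel`, `csCyclicRel` with the unramifiedness hypothesis in the
relative form `UnramOffRel S (L^σ) L`.
Pieces: PT-G1 (first inequality), PT-G2 (idelic second inequality), D-semi, D-div, D-unram,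
D-split (helper59, helper56, helper26), CS-exact (helper56), Map (helper47).
-/
import Fermat.Agent.PT.G.SecondInequality
import Fermat.Agent.PT.G.FirstInequalityFinal
import Fermat.Agent.PT.G.Descent
import Fermat.Agent.PT.G.SemiInv
import Fermat.Agent.PT.G.DivInv
import Fermat.Agent.PT.G.UnramOff
import Fermat.Agent.PT.G.SplitNorm
import Fermat.Agent.PT.G.MapInj
import Fermat.Agent.PT.G2.IdelicFinal

set_option autoImplicit false

namespace Fermat.Agent.PT.G

/-- **C-descent**: `C_S(L)^{Gal(L/K)} = csMap (C_S(K))` for `L / K` Galois, unramified outside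
`S ≠ ∅`. -/
theorem stmtCSDescent : StmtCSDescent := stmtCSDescent_of stmtSemiInv stmtDivInv

/-- **Second inequality** (relative form). -/
theorem secondInequalityRel : StmtCSH0Rel :=
  stmtCSH0Rel_of Fermat.Agent.PT.G2.stmtIdelicSecond stmtCSDescent stmtSplitNorm

/-- **Second inequality**: `|C_S(L)^σ / N C_S(L)| ≤ p`. -/
theorem secondInequality : StmtCSH0 :=
  stmtCSH0_of Fermat.Agent.PT.G2.stmtIdelicSecond stmtCSDescent stmtUnramOff stmtSplitNorm

/-- **The cyclic case of the class formation axiom** for `C_S`. -/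
theorem csCyclic : StmtCSCyclic := stmtCSCyclic_of firstInequality secondInequality

/-- **The cyclic case**, relative form. -/
theorem csCyclicRel : StmtCSCyclicRel := stmtCSCyclicRel_of firstInequality secondInequalityRel

end Fermat.Agent.PT.G
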