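import Fermat.Agent.PT.G.Map

/-!
# Project PT — shared model, piece **Defs-norm**, divisor half: definitions (helper87)

For an extension `L / K` of number fields:
* `inertDeg K P = f(P | P ∩ K)`;
* `divNorm S K L : Div_S(L) →ₗ[ℤ] Div_S(K)`, `P ↦ f(P | 𝔭) · 𝔭` with `𝔭 = P ∩ K`.
-/

set_option autoImplicit false
set_option linter.unusedSectionVars false

namespace Fermat.Agent.PT.G

open NumberField IsDedekindDomain Fermat.Agent.PT.G1 Fermat.Agent.PT.X

variable (S : Finset Nat.Primes) (K L : Type) [Field K] [NumberField K] [Field L] [NumberField L]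
  [Algebra K L]

variable {L}

/-- The inertia degree `f(P | P ∩ K)`. -/
noncomputable def inertDeg (P : HeightOneSpectrum (𝓞 L)) : ℕ :=
  P.asIdeal.inertiaDeg (𝓞 K)

variable (L)

/-- `Div_S(L) → Div_S(K)`: `P ↦ f(P | 𝔭) · 𝔭`, `𝔭 = P ∩ K`. -/
noncomputable def divNorm : DivS S L →ₗ[ℤ] DivS S K :=
  Finsupp.lsum ℤ (fun P : OffS S L =>
    (inertDeg K P.1 : ℤ) • (Finsupp.lsingle (offUnder S K P) : ℤ →ₗ[ℤ] DivS S K))

lemma divNorm_single (P : OffS S L) (n : ℤ) :
    divNorm S K L (Finsupp.single P n) =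
      Finsupp.single (offUnder S K P) ((inertDeg K P.1 : ℤ) * n) := by
  simp [divNorm]

/-- The primes of `L` off `S` over a prime of `K`. -/
noncomputable def offFiber (𝔭 : OffS S K) : Finset (OffS S L) :=
  (finite_fiber_offUnder S K (L := L) 𝔭).toFinset

variable {L} in
lemma mem_offFiber (𝔭 : OffS S K) (P : OffS S L) :
    P ∈ offFiber S K L 𝔭 ↔ offUnder S K P = 𝔭 := by
  simp [offFiber]

lemma divNorm_apply (d : DivS S L) (𝔭 : OffS S K) :
    divNorm S K L d 𝔭 = ∑ P ∈ offFiber S K L 𝔭, (inertDeg K P.1 : ℤ) * d P := by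
  classical
  induction d using Finsupp.induction_linear with
  | zero => simp
  | add d₁ d₂ h₁ h₂ =>
    rw [map_add, Finsupp.add_apply, h₁, h₂, ← Finset.sum_add_distrib]
    refine Finset.sum_congr rfl fun P _ => ?_
    rw [Finsupp.add_apply, mul_add]
  | single P n =>
    rw [divNorm_single]
    by_cases h : offUnder S K P = 𝔭
    · rw [h, Finsupp.single_eq_same, Finset.sum_eq_single P]
      · rw [Finsupp.single_eq_same]
      · intro P' _ hP'
        rw [Finsupp.single_eq_of_ne hP', mul_zero]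
      · intro hP
        exact absurd ((mem_offFiber S K 𝔭 P).2 h) hP
    · rw [Finsupp.single_eq_of_ne (Ne.symm h)]
      symm
      apply Finset.sum_eq_zero
      intro P' hP'
      have hne : P ≠ P' := by
        rintro rfl
        exact h ((mem_offFiber S K 𝔭 P).1 hP')
      rw [Finsupp.single_eq_of_ne hne.symm, mul_zero]

end Fermat.Agent.PT.G
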