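/-
Project PT — PT-G / Norm-ord (helper59): the order of a norm.

For an extension `L / K` of number fields, a prime `𝔭` of `K` and `x ∈ Lˣ`:
`ord_𝔭 (N_{L/K} x) = ∑_{P ∣ 𝔭} f(P ∣ 𝔭) · ord_P x`   (`ordAt_norm`),
with `inertDeg K P = f(P ∣ P ∩ K)` (Mathlib's `Ideal.inertiaDeg`).
Route: `Ideal.relNorm` is multiplicative, `relNorm P = 𝔭 ^ f`, `relNorm (a) = (N a)`.
-/
import Fermat.Agent.PT.G.NormDiv

set_option autoImplicit false
set_option linter.unusedSectionVars false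

namespace Fermat.Agent.PT.G

open NumberField IsDedekindDomain Fermat.Agent.PT.X FractionalIdeal
open scoped nonZeroDivisors

variable (K : Type) {L : Type} [Field K] [NumberField K] [Field L] [NumberField L] [Algebra K L]

lemma inertDeg_ne_zero (P : HeightOneSpectrum (𝓞 L)) : inertDeg K P ≠ 0 := by
  have := P.isPrime
  exact (Ideal.inertiaDeg_pos P.asIdeal (𝓞 K)).ne'

/-- `N_{L/K}(P) = 𝔭 ^ f`. -/
lemma relNorm_asIdeal (P : HeightOneSpectrum (𝓞 L)) :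
    Ideal.relNorm (𝓞 K) P.asIdeal = (primeUnder K P).asIdeal ^ inertDeg K P := by
  have := P.isMaximal
  have := (primeUnder K P).isMaximal
  exact Ideal.relNorm_eq_pow_of_isMaximal P.asIdeal (primeUnder K P).asIdeal

/-- The primes of `L` over a prime of `K` form a finite type. -/
lemma finite_over (𝔭 : HeightOneSpectrum (𝓞 K)) :
    Finite {P : HeightOneSpectrum (𝓞 L) // primeUnder K P = 𝔭} :=
  (finite_fiber_primeUnder K (L := L) 𝔭).to_subtype

open Classical in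
lemma count_relNorm_asIdeal (𝔭 : HeightOneSpectrum (𝓞 K)) (P : HeightOneSpectrum (𝓞 L)) :
    count K 𝔭 ((Ideal.relNorm (𝓞 K) P.asIdeal : Ideal (𝓞 K)) : FractionalIdeal (𝓞 K)⁰ K) =
      if primeUnder K P = 𝔭 then (inertDeg K P : ℤ) else 0 := by
  rw [relNorm_asIdeal, coeIdeal_pow, count_pow, count_maximal]
  split_ifs <;> simp

open Classical in
lemma finsum_inertDeg_mul_count_asIdeal (𝔭 : HeightOneSpectrum (𝓞 K))
    (P : HeightOneSpectrum (𝓞 L)) :
    ∑ᶠ Q : {Q : HeightOneSpectrum (𝓞 L) // primeUnder K Q = 𝔭},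
        (inertDeg K Q.1 : ℤ) * count L Q.1 ((P.asIdeal : Ideal (𝓞 L)) : FractionalIdeal (𝓞 L)⁰ L) =
      if primeUnder K P = 𝔭 then (inertDeg K P : ℤ) else 0 := by
  split_ifs with h
  · rw [finsum_eq_single _ (⟨P, h⟩ : {Q : HeightOneSpectrum (𝓞 L) // primeUnder K Q = 𝔭})]
    · rw [count_self, mul_one]
    · intro Q hQ
      have hne : P ≠ Q.1 := fun hPQ => hQ (Subtype.ext hPQ.symm)
      rw [count_maximal_coprime L Q.1 hne, mul_zero]
  · apply finsum_eq_zero_of_forall_eq_zero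
    intro Q
    have hne : P ≠ Q.1 := by
      rintro rfl
      exact h Q.2
    rw [count_maximal_coprime L Q.1 hne, mul_zero]

/-- `ord_𝔭 (N I) = ∑_{P ∣ 𝔭} f(P ∣ 𝔭) · ord_P I` for a nonzero ideal `I` of `𝓞 L`. -/
theorem count_relNorm (𝔭 : HeightOneSpectrum (𝓞 K)) (I : Ideal (𝓞 L)) (hI : I ≠ ⊥) :
    count K 𝔭 ((Ideal.relNorm (𝓞 K) I : Ideal (𝓞 K)) : FractionalIdeal (𝓞 K)⁰ K) =
      ∑ᶠ Q : {Q : HeightOneSpectrum (𝓞 L) // primeUnder K Q = 𝔭},
        (inertDeg K Q.1 : ℤ) * count L Q.1 ((I : Ideal (𝓞 L)) : FractionalIdeal (𝓞 L)⁰ L) := by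
  have hfin := finite_over K (L := L) 𝔭
  induction I using UniqueFactorizationMonoid.induction_on_prime with
  | h₁ => exact absurd rfl hI
  | h₂ I hu =>
    have h1 : I = ⊤ := Ideal.isUnit_iff.1 hu
    subst h1
    rw [Ideal.relNorm_top, coeIdeal_top, count_one]
    symm
    apply finsum_eq_zero_of_forall_eq_zero
    intro Q
    rw [coeIdeal_top, count_one, mul_zero]
  | h₃ J P hJ hP ih =>
    have hJ' : J ≠ ⊥ := hJ
    have hP0 : P ≠ ⊥ := hP.ne_zero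
    have hPprime : P.IsPrime := (Ideal.prime_iff_isPrime hP0).1 hP
    set P' : HeightOneSpectrum (𝓞 L) := ⟨P, hPprime, hP0⟩ with hP'
    have hPas : P = P'.asIdeal := rfl
    have hcJ : ((J : Ideal (𝓞 L)) : FractionalIdeal (𝓞 L)⁰ L) ≠ 0 :=
      coeIdeal_ne_zero.2 hJ'
    have hcP : ((P : Ideal (𝓞 L)) : FractionalIdeal (𝓞 L)⁰ L) ≠ 0 :=
      coeIdeal_ne_zero.2 hP0
    have hnJ : ((Ideal.relNorm (𝓞 K) J : Ideal (𝓞 K)) : FractionalIdeal (𝓞 K)⁰ K) ≠ 0 :=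
      coeIdeal_ne_zero.2 (fun h => hJ' (Ideal.relNorm_eq_bot_iff.1 h))
    have hnP : ((Ideal.relNorm (𝓞 K) P : Ideal (𝓞 K)) : FractionalIdeal (𝓞 K)⁰ K) ≠ 0 :=
      coeIdeal_ne_zero.2 (fun h => hP0 (Ideal.relNorm_eq_bot_iff.1 h))
    rw [map_mul, coeIdeal_mul, count_mul K 𝔭 hnP hnJ, ih hJ']
    have h2 : ∀ Q : {Q : HeightOneSpectrum (𝓞 L) // primeUnder K Q = 𝔭},
        (inertDeg K Q.1 : ℤ) * count L Q.1 (((P * J : Ideal (𝓞 L)) : Ideal (𝓞 L)) :
          FractionalIdeal (𝓞 L)⁰ L) =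
        (inertDeg K Q.1 : ℤ) * count L Q.1 ((P : Ideal (𝓞 L)) : FractionalIdeal (𝓞 L)⁰ L) +
        (inertDeg K Q.1 : ℤ) * count L Q.1 ((J : Ideal (𝓞 L)) : FractionalIdeal (𝓞 L)⁰ L) := by
      intro Q
      rw [coeIdeal_mul, count_mul L Q.1 hcP hcJ, mul_add]
    rw [finsum_congr h2, finsum_add_distrib (Set.toFinite _) (Set.toFinite _)]
    congr 1
    rw [hPas, count_relNorm_asIdeal, finsum_inertDeg_mul_count_asIdeal]

/-- The two sides of `ordAt_norm`, as functions of `x`. -/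
lemma ordAt_norm_mul_aux (𝔭 : HeightOneSpectrum (𝓞 K)) (x y : Lˣ) :
    ∑ᶠ P : {P : HeightOneSpectrum (𝓞 L) // primeUnder K P = 𝔭},
        (inertDeg K P.1 : ℤ) * ordAt P.1 (x * y) =
      (∑ᶠ P : {P : HeightOneSpectrum (𝓞 L) // primeUnder K P = 𝔭},
        (inertDeg K P.1 : ℤ) * ordAt P.1 x) +
      ∑ᶠ P : {P : HeightOneSpectrum (𝓞 L) // primeUnder K P = 𝔭},
        (inertDeg K P.1 : ℤ) * ordAt P.1 y := by
  have hfin := finite_over K (L := L) 𝔭
  rw [← finsum_add_distrib (Set.toFinite _) (Set.toFinite _)]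
  apply finsum_congr
  intro P
  rw [ordAt_mul, mul_add]

/-- `ordAt_norm` for nonzero integers. -/
theorem ordAt_norm_of_integer (𝔭 : HeightOneSpectrum (𝓞 K)) (x : Lˣ) (a : 𝓞 L)
    (ha : algebraMap (𝓞 L) L a = (x : L)) :
    ordAt 𝔭 (Units.map (Algebra.norm K : L →* K) x) =
      ∑ᶠ P : {P : HeightOneSpectrum (𝓞 L) // primeUnder K P = 𝔭},
        (inertDeg K P.1 : ℤ) * ordAt P.1 x := by
  have ha0 : a ≠ 0 := by
    rintro rfl
    rw [map_zero] at ha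
    exact x.ne_zero ha.symm
  have hI : Ideal.span ({a} : Set (𝓞 L)) ≠ ⊥ := by
    rw [Ne, Ideal.span_singleton_eq_bot]
    exact ha0
  have h1 := count_relNorm K 𝔭 (Ideal.span ({a} : Set (𝓞 L))) hI
  rw [Ideal.relNorm_singleton, coeIdeal_span_singleton, coeIdeal_span_singleton,
    Algebra.algebraMap_intNorm (A := 𝓞 K) (K := K) (L := L) (B := 𝓞 L) a, ha] at h1
  exact h1

/-- **The order of a norm**: `ord_𝔭 (N_{L/K} x) = ∑_{P ∣ 𝔭} f(P ∣ 𝔭) · ord_P x`. -/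
theorem ordAt_norm (𝔭 : HeightOneSpectrum (𝓞 K)) (x : Lˣ) :
    ordAt 𝔭 (Units.map (Algebra.norm K : L →* K) x) =
      ∑ᶠ P : {P : HeightOneSpectrum (𝓞 L) // primeUnder K P = 𝔭},
        (inertDeg K P.1 : ℤ) * ordAt P.1 x := by
  obtain ⟨a, b, hb, hab⟩ := IsFractionRing.div_surjective (A := 𝓞 L) (x : L)
  have hb0 : algebraMap (𝓞 L) L b ≠ 0 :=
    map_ne_zero_of_mem_nonZeroDivisors _ (IsFractionRing.injective (𝓞 L) L) hb
  set y : Lˣ := Units.mk0 (algebraMap (𝓞 L) L b) hb0 with hy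
  have hxy : algebraMap (𝓞 L) L a = ((x * y : Lˣ) : L) := by
    rw [Units.val_mul, hy, Units.val_mk0, ← hab, div_mul_cancel₀ _ hb0]
  have h1 := ordAt_norm_of_integer K 𝔭 (x * y) a hxy
  have h2 := ordAt_norm_of_integer K 𝔭 y b rfl
  rw [map_mul, ordAt_mul, ordAt_norm_mul_aux, h2] at h1
  exact add_right_cancel h1

/-! ### The fundamental identity `∑ e f = [L : K]` -/

/-- The primes of `L` over `𝔭`, as a subtype of `HeightOneSpectrum`, versus Mathlib's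
`Ideal.primesOver`. -/
noncomputable def overEquivPrimesOver (𝔭 : HeightOneSpectrum (𝓞 K)) :
    {P : HeightOneSpectrum (𝓞 L) // primeUnder K P = 𝔭} ≃ 𝔭.asIdeal.primesOver (𝓞 L) where
  toFun P := ⟨P.1.asIdeal, P.1.isPrime, ⟨(congrArg HeightOneSpectrum.asIdeal P.2).symm⟩⟩
  invFun Q := ⟨⟨Q.1, Q.2.1, Ideal.ne_bot_of_mem_primesOver 𝔭.ne_bot Q.2⟩,
    HeightOneSpectrum.ext (Q.2.2.over).symm⟩
  left_inv _ := Subtype.ext (HeightOneSpectrum.ext rfl)
  right_inv _ := Subtype.ext rfl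

lemma ramIdx_eq_ramificationIdx (P : HeightOneSpectrum (𝓞 L)) :
    ramIdx K P = P.asIdeal.ramificationIdx (𝓞 K) := by
  have := P.isPrime
  exact Ideal.ramificationIdx'_eq_ramificationIdx (primeUnder K P).asIdeal P.asIdeal
    (primeUnder K P).ne_bot

/-- **The fundamental identity**: `∑_{P ∣ 𝔭} e(P ∣ 𝔭) f(P ∣ 𝔭) = [L : K]`. -/
theorem sum_ramIdx_mul_inertDeg (𝔭 : HeightOneSpectrum (𝓞 K)) :
    ∑ᶠ P : {P : HeightOneSpectrum (𝓞 L) // primeUnder K P = 𝔭}, ramIdx K P.1 * inertDeg K P.1 =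
      Module.finrank K L := by
  classical
  have := 𝔭.isPrime
  have hfin := finite_over K (L := L) 𝔭
  have h := Ideal.sum_ramification_inertia_eq_finrank 𝔭.asIdeal (𝓞 L)
  rw [← IsFractionRing.finrank_eq (𝓞 K) K (𝓞 L) L] at h
  rw [← h, ← finsum_eq_sum_of_fintype]
  rw [← finsum_comp_equiv (overEquivPrimesOver K (L := L) 𝔭)]
  apply finsum_congr
  intro P
  rw [ramIdx_eq_ramificationIdx]
  rfl

/-! ### The divisor form -/

section DivForm

open Fermat.Agent.PT.G1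

variable (S : Finset Nat.Primes)

/-- The primes of `L` off `S` over `𝔭` (off `S`) are all the primes of `L` over `𝔭`. -/
noncomputable def offFiberEquiv (𝔭 : OffS S K) :
    {P : OffS S L // P ∈ offFiber S K L 𝔭} ≃
      {P : HeightOneSpectrum (𝓞 L) // primeUnder K P = 𝔭.1} where
  toFun P := ⟨P.1.1, congrArg Subtype.val ((mem_offFiber S K 𝔭 P.1).1 P.2)⟩
  invFun Q := ⟨⟨Q.1, fun h => 𝔭.2 (by
      have h1 := (natCast_mem_primeUnder_iff K L Q.1 (sProd S)).2 h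
      rwa [Q.2] at h1)⟩,
    (mem_offFiber S K 𝔭 _).2 (Subtype.ext Q.2)⟩
  left_inv _ := Subtype.ext (Subtype.ext rfl)
  right_inv _ := Subtype.ext rfl

/-- **The order of a norm, divisor form**: `div (N_{L/K} x) = N_{L/K} (div x)`. -/
theorem divNorm_divHom (x : Additive Lˣ) :
    divNorm S K L (divHom S L x) =
      divHom S K (Additive.ofMul (Units.map (Algebra.norm K : L →* K) (Additive.toMul x))) := by
  ext 𝔭
  rw [divNorm_apply, divHom_apply]
  show _ = ordAt 𝔭.1 (Units.map (Algebra.norm K : L →* K) (Additive.toMul x))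
  rw [ordAt_norm, ← finsum_comp_equiv (offFiberEquiv K S 𝔭), finsum_eq_sum_of_fintype,
    ← Finset.sum_coe_sort]
  rfl

end DivForm

end Fermat.Agent.PT.G
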