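import Fermat.Agent.PT.G.NormJD
import Fermat.Agent.PT.G.NormOrd

/-!
# Project PT — shared model, piece **Defs-norm**: the norm `C_S(L) → C_S(K)` (helper87)

For an extension `L / K` of number fields (types, `[Algebra K L]`):
* `csNorm S K L : C_S(L) →ₗ[ℤ] C_S(K)`, induced by the norms `ℚ_q ⊗ L → ℚ_q ⊗ K` (`semiNorm`)
  and by `P ↦ f(P | 𝔭) · 𝔭` on divisors (`divNorm`);
* `csNorm_csMap : csNorm (csMap c) = [L : K] • c`;
* `csEnd_csNorm`: equivariance, `csNorm ∘ σ = τ ∘ csNorm` if `σ ∈ Aut(L)` restricts to `τ ∈ Aut(K)`.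
The Galois formula `csMap ∘ csNorm = ∑ σ` is in `NormGal.lean`.
-/

set_option autoImplicit false
set_option linter.unusedSectionVars false

namespace Fermat.Agent.PT.G

open NumberField IsDedekindDomain Fermat.Agent.PT.G1 Fermat.Agent.PT.X TensorProduct

variable (S : Finset Nat.Primes) (K L : Type) [Field K] [NumberField K] [Field L] [NumberField L]
  [Algebra K L]

/-- `N ∘ incl = [L : K]` on divisors. -/
lemma divNorm_divMap (d : DivS S K) :
    divNorm S K L (divMap S K L d) = (Module.finrank K L : ℤ) • d := by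
  classical
  ext 𝔭
  rw [divNorm_apply, Finsupp.smul_apply, smul_eq_mul]
  have h1 : ∀ P ∈ offFiber S K L 𝔭, (inertDeg K P.1 : ℤ) * divMap S K L d P =
      ((ramIdx K P.1 * inertDeg K P.1 : ℕ) : ℤ) * d 𝔭 := by
    intro P hP
    rw [divMap_apply, (mem_offFiber S K 𝔭 P).1 hP]
    push_cast
    ring
  rw [Finset.sum_congr rfl h1, ← Finset.sum_mul, ← Nat.cast_sum]
  congr 2
  rw [← sum_ramIdx_mul_inertDeg K (L := L) 𝔭.1, ← finsum_comp_equiv (offFiberEquiv K S 𝔭),
    finsum_eq_sum_of_fintype, ← Finset.sum_coe_sort]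
  rfl

/-! ### The class module -/

/-- `J_L × Div_S(L) → J_K × Div_S(K)`. -/
noncomputable def jdNorm : Additive (JL S L) × DivS S L →ₗ[ℤ] Additive (JL S K) × DivS S K :=
  LinearMap.prodMap (jlNormLin S K L) (divNorm S K L)

lemma jdNorm_iotaHom (x : Additive Lˣ) :
    jdNorm S K L (iotaHom S L x) =
      iotaHom S K (Additive.ofMul (Units.map (Algebra.norm K : L →* K) (Additive.toMul x))) := by
  apply Prod.ext
  · exact congrArg Additive.ofMul (jlNorm_jlDiag S K L (Additive.toMul x))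
  · exact divNorm_divHom K S x

lemma range_iotaHom_le_comap_jdNorm :
    LinearMap.range (iotaHom S L) ≤ (LinearMap.range (iotaHom S K)).comap (jdNorm S K L) := by
  rintro _ ⟨x, rfl⟩
  exact ⟨_, (jdNorm_iotaHom S K L x).symm⟩

/-- **The norm `C_S(L) → C_S(K)`** for an extension `L / K` of number fields. -/
noncomputable def csNorm : CS S L →ₗ[ℤ] CS S K :=
  Submodule.mapQ _ _ (jdNorm S K L) (range_iotaHom_le_comap_jdNorm S K L)

@[simp] lemma csNorm_mk (y : Additive (JL S L) × DivS S L) :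
    csNorm S K L (csMk S L y) = csMk S K (jdNorm S K L y) := rfl

lemma csNorm_csOfJ (j : Additive (JL S L)) :
    csNorm S K L (csOfJ S L j) = csOfJ S K (jlNormLin S K L j) := by
  rw [csOfJ_apply, csNorm_mk, csOfJ_apply]
  congr 1

lemma csNorm_csOfDiv (d : DivS S L) :
    csNorm S K L (csOfDiv S L d) = csOfDiv S K (divNorm S K L d) := by
  rw [csOfDiv_apply, csNorm_mk, csOfDiv_apply]
  congr 1
  apply Prod.ext
  · exact map_zero (jlNormLin S K L)
  · rfl

lemma jdNorm_jdMap (y : Additive (JL S K) × DivS S K) :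
    jdNorm S K L (jdMap S K L y) = (Module.finrank K L : ℤ) • y := by
  apply Prod.ext
  · show jlNormLin S K L (jlMapLin S K L y.1) = (Module.finrank K L : ℤ) • y.1
    apply Additive.toMul.injective
    have h := jlNorm_jlMap S K L (Additive.toMul y.1)
    rw [natCast_zsmul]
    exact h
  · exact divNorm_divMap S K L y.2

/-- **`csNorm ∘ csMap = [L : K]`.** -/
theorem csNorm_csMap (c : CS S K) :
    csNorm S K L (csMap S K L c) = (Module.finrank K L : ℤ) • c := by
  induction c using Submodule.Quotient.induction_on with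
  | _ y =>
    show csMk S K (jdNorm S K L (jdMap S K L y)) = (Module.finrank K L : ℤ) • csMk S K y
    rw [jdNorm_jdMap, map_smul]

/-! ### Equivariance -/

variable {K L}

lemma jdEnd_jdNorm {σ : L ≃ₐ[ℚ] L} {τ : K ≃ₐ[ℚ] K} (h : Restricts σ τ)
    (y : Additive (JL S L) × DivS S L) :
    jdNorm S K L (jdEnd S σ y) = jdEnd S τ (jdNorm S K L y) := by
  apply Prod.ext
  · exact jlEnd_jlNormLin S h y.1
  · exact divEnd_divNorm S h y.2

/-- **Equivariance of `csNorm`.** -/
theorem csEnd_csNorm {σ : L ≃ₐ[ℚ] L} {τ : K ≃ₐ[ℚ] K} (h : Restricts σ τ) (c : CS S L) :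
    csNorm S K L (csEnd S σ c) = csEnd S τ (csNorm S K L c) := by
  induction c using Submodule.Quotient.induction_on with
  | _ y =>
    show csMk S K (jdNorm S K L (jdEnd S σ y)) = csMk S K (jdEnd S τ (jdNorm S K L y))
    rw [jdEnd_jdNorm S h]

end Fermat.Agent.PT.G
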