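import Fermat.Agent.PT.G.NormSemi
import Fermat.Agent.PT.G.NormDiv

/-!
# Project PT — shared model, piece **Defs-norm**: the norm on `J_L` and equivariance (helper87)

* `jlNorm S K L : J_L →* J_K`, `jlNormLin` (additive), `jlNorm_jlDiag`, `jlNorm_jlMap`,
  `jlMap_jlNorm` (Galois), `jlEnd_jlNormLin` (equivariance);
* `inertDeg_primeMap`, `divEnd_divNorm` (equivariance of the divisor norm).
-/

set_option autoImplicit false
set_option linter.unusedSectionVars false
set_option linter.style.haveILetI false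

namespace Fermat.Agent.PT.G

open NumberField IsDedekindDomain Fermat.Agent.PT.G1 Fermat.Agent.PT.X TensorProduct

variable (S : Finset Nat.Primes) (K L : Type) [Field K] [NumberField K] [Field L] [NumberField L]
  [Algebra K L]

/-! ### The idèle part -/

/-- `J_L → J_K`, the norm. -/
noncomputable def jlNorm : JL S L →* JL S K :=
  MonoidHom.pi fun q =>
    (Units.map (semiNorm K L ((q : Nat.Primes) : ℕ))).comp (Pi.evalMonoidHom _ q)

@[simp] lemma jlNorm_apply (x : JL S L) (q : ↥S) :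
    ((jlNorm S K L x q : (semiAlg ((q : Nat.Primes) : ℕ) K)ˣ) : semiAlg ((q : Nat.Primes) : ℕ) K) =
      semiNorm K L ((q : Nat.Primes) : ℕ) (x q : semiAlg ((q : Nat.Primes) : ℕ) L) := rfl

lemma jlNorm_jlDiag (x : Lˣ) :
    jlNorm S K L (jlDiag S L x) = jlDiag S K (Units.map (Algebra.norm K : L →* K) x) := by
  funext q
  apply Units.ext
  show semiNorm K L ((q : Nat.Primes) : ℕ) ((1 : ℚ_[((q : Nat.Primes) : ℕ)]) ⊗ₜ[ℚ] (x : L)) =
    (1 : ℚ_[((q : Nat.Primes) : ℕ)]) ⊗ₜ[ℚ] (Algebra.norm K (x : L))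
  exact semiNorm_one_tmul K L _ _

/-- `N ∘ incl = [L : K]` on `J_K`. -/
lemma jlNorm_jlMap (x : JL S K) : jlNorm S K L (jlMap S K L x) = x ^ Module.finrank K L := by
  funext q
  apply Units.ext
  show semiNorm K L ((q : Nat.Primes) : ℕ) (semiIncl K L ((q : Nat.Primes) : ℕ) (x q)) = _
  rw [semiNorm_semiIncl]
  rfl

/-- `incl ∘ N = ∏ σ` on `J_L` in the Galois case. -/
lemma jlMap_jlNorm [IsGalois K L] (x : JL S L) :
    jlMap S K L (jlNorm S K L x) = ∏ σ : L ≃ₐ[K] L, jlHom S (σ.restrictScalars ℚ) x := by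
  funext q
  apply Units.ext
  have h1 : ((jlMap S K L (jlNorm S K L x) q : (semiAlg ((q : Nat.Primes) : ℕ) L)ˣ) :
      semiAlg ((q : Nat.Primes) : ℕ) L) =
      semiIncl K L ((q : Nat.Primes) : ℕ) (semiNorm K L ((q : Nat.Primes) : ℕ) (x q)) := rfl
  rw [h1, semiIncl_semiNorm, Finset.prod_apply, Units.coe_prod]
  rfl

/-- `J_L → J_K`, additively. -/
noncomputable def jlNormLin : Additive (JL S L) →ₗ[ℤ] Additive (JL S K) :=
  (MonoidHom.toAdditive (jlNorm S K L)).toIntLinearMap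

variable {K L} in
/-- Equivariance of the norm on `J_L`. -/
lemma jlEnd_jlNormLin {σ : L ≃ₐ[ℚ] L} {τ : K ≃ₐ[ℚ] K} (h : Restricts σ τ)
    (j : Additive (JL S L)) :
    jlNormLin S K L (jlEnd S σ j) = jlEnd S τ (jlNormLin S K L j) := by
  apply Additive.toMul.injective
  funext q
  apply Units.ext
  exact semiNorm_semiMap _ h _

/-! ### The divisor part -/

variable {L} in
lemma card_quot_primeMap (σ : L ≃ₐ[ℚ] L) (P : HeightOneSpectrum (𝓞 L)) :
    Nat.card (𝓞 L ⧸ (primeMap σ P).asIdeal) = Nat.card (𝓞 L ⧸ P.asIdeal) :=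
  (Nat.card_congr (Ideal.quotientEquiv P.asIdeal (primeMap σ P).asIdeal
    (RingOfIntegers.mapRingEquiv (σ : L ≃+* L)) (primeMap_asIdeal_eq_map σ P)).toEquiv).symm

variable {L} in
lemma two_le_card_quot (P : HeightOneSpectrum (𝓞 L)) : 2 ≤ Nat.card (𝓞 L ⧸ P.asIdeal) := by
  haveI : Finite (𝓞 L ⧸ P.asIdeal) := Ideal.finiteQuotientOfFreeOfNeBot P.asIdeal P.ne_bot
  haveI : Nontrivial (𝓞 L ⧸ P.asIdeal) := Ideal.Quotient.nontrivial_iff.2 P.isPrime.ne_top
  exact Finite.one_lt_card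

variable {L} in
lemma card_quot_pow_inertDeg (P : HeightOneSpectrum (𝓞 L)) :
    Nat.card (𝓞 K ⧸ (primeUnder K P).asIdeal) ^ inertDeg K P = Nat.card (𝓞 L ⧸ P.asIdeal) := by
  haveI : (primeUnder K P).asIdeal.IsMaximal := (primeUnder K P).isMaximal
  haveI : P.asIdeal.IsMaximal := P.isMaximal
  exact Ideal.cardQuot_pow_inertiaDeg (primeUnder K P).asIdeal P.asIdeal

variable {K L} in
/-- The inertia degree is invariant under automorphisms. -/
lemma inertDeg_primeMap {σ : L ≃ₐ[ℚ] L} {τ : K ≃ₐ[ℚ] K} (h : Restricts σ τ)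
    (P : HeightOneSpectrum (𝓞 L)) : inertDeg K (primeMap σ P) = inertDeg K P := by
  have h1 := card_quot_pow_inertDeg K (primeMap σ P)
  have h2 := card_quot_pow_inertDeg K P
  rw [primeUnder_primeMap h, card_quot_primeMap, card_quot_primeMap, ← h2] at h1
  exact Nat.pow_right_injective (two_le_card_quot (primeUnder K P)) h1

variable {K L} in
/-- Equivariance of the divisor norm. -/
lemma divEnd_divNorm {σ : L ≃ₐ[ℚ] L} {τ : K ≃ₐ[ℚ] K} (h : Restricts σ τ) (d : DivS S L) :
    divNorm S K L (divEnd S σ d) = divEnd S τ (divNorm S K L d) := by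
  classical
  induction d using Finsupp.induction_linear with
  | zero => simp
  | add d₁ d₂ h₁ h₂ => rw [map_add, map_add, map_add, map_add, h₁, h₂]
  | single P n =>
    have hs : ∀ (ρ : L ≃ₐ[ℚ] L) (Q : OffS S L) (m : ℤ),
        divEnd S ρ (Finsupp.single Q m) = Finsupp.single (offEquiv S ρ Q) m := by
      intro ρ Q m
      simp [divEnd, Finsupp.domLCongr_apply, Finsupp.domCongr_apply]
    have hs' : ∀ (ρ : K ≃ₐ[ℚ] K) (Q : OffS S K) (m : ℤ),
        divEnd S ρ (Finsupp.single Q m) = Finsupp.single (offEquiv S ρ Q) m := by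
      intro ρ Q m
      simp [divEnd, Finsupp.domLCongr_apply, Finsupp.domCongr_apply]
    rw [hs, divNorm_single, divNorm_single, hs', offUnder_offEquiv S h]
    have : inertDeg K (offEquiv S σ P).1 = inertDeg K P.1 := inertDeg_primeMap h P.1
    rw [this]

end Fermat.Agent.PT.G
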