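/-
Project PT — shared model, piece **Norm-divgal** (helper6): for `L / K` Galois,
`incl ∘ N = Σ_σ σ` on `Div_S(L)`:

  `divMap S K L (divNorm S K L d) = ∑ σ : Gal(L/K), divEnd S σ d`   (`divMap_divNorm`).

Route: `Gal(L/K)` acts transitively on the primes over `𝔭` (Mathlib), and the stabiliser of `P`
has order `e f` (Mathlib `Ideal.card_stabilizer_eq`); so the number of `σ` with `σ P = P'`
is `e f` if `P, P'` lie over the same prime of `K` and `0` otherwise.
-/
import Fermat.Agent.PT.G.NormJD
import Fermat.Agent.PT.G.SplitNorm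

set_option autoImplicit false
set_option linter.unusedSectionVars false
set_option linter.style.haveILetI false

namespace Fermat.Agent.PT.G

open NumberField IsDedekindDomain Fermat.Agent.PT.G1

open scoped Pointwise

section

variable (S : Finset Nat.Primes) (K L : Type) [Field K] [NumberField K] [Field L] [NumberField L]
  [Algebra K L]

variable {L}

/-- In the Galois case `ramIdx K P` is `e(𝔭)`, the common ramification index over `𝔭 = P ∩ K`. -/
theorem ndg_ramIdx_eq_in [IsGalois K L] (P : HeightOneSpectrum (𝓞 L)) :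
    ramIdx K P = (primeUnder K P).asIdeal.ramificationIdxIn (𝓞 L) := by
  haveI : P.asIdeal.IsPrime := P.isPrime
  haveI : (primeUnder K P).asIdeal.IsPrime := (primeUnder K P).isPrime
  haveI : P.asIdeal.LiesOver (primeUnder K P).asIdeal := primeUnder_liesOver K P
  have h2 : (primeUnder K P).asIdeal.ramificationIdxIn (𝓞 L) = P.asIdeal.ramificationIdx (𝓞 K) :=
    Ideal.ramificationIdxIn_eq_ramificationIdx (primeUnder K P).asIdeal P.asIdeal (L ≃ₐ[K] L)
  have h3 : (primeUnder K P).asIdeal.ramificationIdx' P.asIdeal =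
      P.asIdeal.ramificationIdx (𝓞 K) :=
    Ideal.ramificationIdx'_eq_ramificationIdx (primeUnder K P).asIdeal P.asIdeal
      (primeUnder K P).ne_bot
  rw [h2, ← h3]
  rfl

/-- In the Galois case `inertDeg K P` is `f(𝔭)`, the common inertia degree over `𝔭 = P ∩ K`. -/
theorem ndg_inertDeg_eq_in [IsGalois K L] (P : HeightOneSpectrum (𝓞 L)) :
    inertDeg K P = (primeUnder K P).asIdeal.inertiaDegIn (𝓞 L) := by
  haveI : P.asIdeal.IsPrime := P.isPrime
  haveI : (primeUnder K P).asIdeal.IsPrime := (primeUnder K P).isPrime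
  haveI : P.asIdeal.LiesOver (primeUnder K P).asIdeal := primeUnder_liesOver K P
  rw [Ideal.inertiaDegIn_eq_inertiaDeg (primeUnder K P).asIdeal P.asIdeal (L ≃ₐ[K] L)]
  rfl

/-- The order of the decomposition group of `P` in `Gal(L/K)` is `e f`. -/
theorem ndg_card_stabilizer [IsGalois K L] (P : HeightOneSpectrum (𝓞 L)) :
    Nat.card (MulAction.stabilizer (L ≃ₐ[K] L) P.asIdeal) = ramIdx K P * inertDeg K P := by
  haveI : P.asIdeal.IsPrime := P.isPrime
  haveI : (primeUnder K P).asIdeal.IsPrime := (primeUnder K P).isPrime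
  haveI : P.asIdeal.LiesOver (primeUnder K P).asIdeal := primeUnder_liesOver K P
  rw [Ideal.card_stabilizer_eq (G := L ≃ₐ[K] L) (primeUnder K P).asIdeal P.asIdeal,
    ndg_ramIdx_eq_in, ndg_inertDeg_eq_in]

/-- The number of `σ ∈ Gal(L/K)` with `σ P = P'` is `e f` if `P` and `P'` lie over the same prime
of `K`. -/
theorem ndg_card_transporter [IsGalois K L] (P P' : HeightOneSpectrum (𝓞 L))
    (h : primeUnder K P = primeUnder K P') :
    Nat.card {σ : L ≃ₐ[K] L // σ • P.asIdeal = P'.asIdeal} = ramIdx K P' * inertDeg K P := by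
  haveI : P.asIdeal.IsPrime := P.isPrime
  haveI : P'.asIdeal.IsPrime := P'.isPrime
  haveI : (primeUnder K P).asIdeal.IsPrime := (primeUnder K P).isPrime
  haveI : P.asIdeal.LiesOver (primeUnder K P).asIdeal := primeUnder_liesOver K P
  haveI : P'.asIdeal.LiesOver (primeUnder K P).asIdeal := by
    rw [h]; exact primeUnder_liesOver K P'
  obtain ⟨τ, hτ⟩ := Ideal.exists_smul_eq_of_isGaloisGroup (primeUnder K P).asIdeal P.asIdeal
    P'.asIdeal (L ≃ₐ[K] L)
  have he : ramIdx K P' = ramIdx K P := by
    rw [ndg_ramIdx_eq_in, ndg_ramIdx_eq_in, h]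
  rw [he, ← ndg_card_stabilizer]
  refine Nat.card_congr ?_
  refine
    { toFun := fun σ => ⟨τ⁻¹ * σ.1, ?_⟩
      invFun := fun σ => ⟨τ * σ.1, ?_⟩
      left_inv := ?_
      right_inv := ?_ }
  · rw [MulAction.mem_stabilizer_iff, mul_smul, σ.2, ← hτ, inv_smul_smul]
  · have := MulAction.mem_stabilizer_iff.mp σ.2
    rw [mul_smul, this, hτ]
  · intro σ
    apply Subtype.ext
    simp
  · intro σ
    apply Subtype.ext
    simp

variable (L)

/-- **Norm-divgal**: `incl ∘ N = Σ_{σ ∈ Gal(L/K)} σ` on `Div_S(L)`. -/
theorem divMap_divNorm [IsGalois K L] (d : DivS S L) :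
    divMap S K L (divNorm S K L d) = ∑ σ : L ≃ₐ[K] L, divEnd S (σ.restrictScalars ℚ) d := by
  classical
  induction d using Finsupp.induction_linear with
  | zero => simp
  | add f g hf hg =>
    rw [map_add, map_add, hf, hg, ← Finset.sum_add_distrib]
    refine Finset.sum_congr rfl fun σ _ => ?_
    rw [map_add]
  | single P n =>
    ext P'
    rw [divNorm_single, divMap_apply, Finsupp.coe_finsetSum, Finset.sum_apply]
    have hsingle : ∀ σ : L ≃ₐ[K] L, divEnd S (σ.restrictScalars ℚ) (Finsupp.single P n) =
        Finsupp.single (offEquiv S (galToAut σ) P) n := by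
      intro σ
      unfold divEnd
      rw [LinearEquiv.coe_coe, Finsupp.domLCongr_single]
      rfl
    simp only [hsingle, Finsupp.single_apply]
    have hkey : ∀ σ : L ≃ₐ[K] L, offEquiv S (galToAut σ) P = P' ↔
        σ • P.1.asIdeal = P'.1.asIdeal := by
      intro σ
      rw [← sn_primeMap_eq_smul]
      constructor
      · intro h
        rw [← h]
        rfl
      · intro h
        exact Subtype.ext (HeightOneSpectrum.ext h)
    by_cases hPP : offUnder S K P = offUnder S K P'
    · rw [if_pos hPP]
      have hu : primeUnder K P.1 = primeUnder K P'.1 := congrArg Subtype.val hPP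
      have hcard := ndg_card_transporter K P.1 P'.1 hu
      rw [Finset.sum_ite, Finset.sum_const_zero, add_zero, Finset.sum_const, nsmul_eq_mul]
      have hc : (Finset.univ.filter fun σ : L ≃ₐ[K] L => offEquiv S (galToAut σ) P = P').card =
          ramIdx K P'.1 * inertDeg K P.1 := by
        rw [← hcard, Nat.card_eq_fintype_card, Fintype.card_subtype]
        congr 1
        ext σ
        simp only [Finset.mem_filter, Finset.mem_univ, true_and]
        exact hkey σ
      rw [hc]
      push_cast
      ring
    · rw [if_neg hPP, mul_zero]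
      symm
      apply Finset.sum_eq_zero
      intro σ _
      rw [if_neg]
      intro h
      apply hPP
      rw [← h, offUnder_offEquiv S (sn_restricts (galToAut σ) (galToAut_fixes σ)), offEquiv_one]
      rfl

end

end Fermat.Agent.PT.G
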