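import Fermat.Agent.PT.G.Norm

/-!
# Project PT — shared model, piece **Defs-norm**: the Galois formula `csMap ∘ csNorm = ∑ σ`

`csMap_csNorm_of`: for `L / K` Galois, `csMap (csNorm c) = ∑_{σ ∈ Gal(L/K)} σ c` on `C_S(L)`,
from the same formula on divisors (`divMap ∘ divNorm = ∑ σ`, piece Norm-divgal).
-/

set_option autoImplicit false
set_option linter.unusedSectionVars false

namespace Fermat.Agent.PT.G

open NumberField IsDedekindDomain Fermat.Agent.PT.G1 Fermat.Agent.PT.X TensorProduct

variable (S : Finset Nat.Primes) (K L : Type) [Field K] [NumberField K] [Field L] [NumberField L]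
  [Algebra K L]

/-- The Galois formula on divisors (piece Norm-divgal). -/
def StmtDivGal : Prop :=
  ∀ d : DivS S L, divMap S K L (divNorm S K L d) =
    ∑ σ : L ≃ₐ[K] L, divEnd S (σ.restrictScalars ℚ) d

lemma jlMapLin_jlNormLin [IsGalois K L] (j : Additive (JL S L)) :
    jlMapLin S K L (jlNormLin S K L j) = ∑ σ : L ≃ₐ[K] L, jlEnd S (σ.restrictScalars ℚ) j := by
  apply Additive.toMul.injective
  have h := jlMap_jlNorm S K L (Additive.toMul j)
  rw [toMul_sum]
  exact h

lemma jdMap_jdNorm [IsGalois K L] (hdiv : StmtDivGal S K L)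
    (y : Additive (JL S L) × DivS S L) :
    jdMap S K L (jdNorm S K L y) = ∑ σ : L ≃ₐ[K] L, jdEnd S (σ.restrictScalars ℚ) y := by
  apply Prod.ext
  · rw [Prod.fst_sum]
    exact jlMapLin_jlNormLin S K L y.1
  · rw [Prod.snd_sum]
    exact hdiv y.2

/-- **`csMap ∘ csNorm = ∑_{σ ∈ Gal(L/K)} σ`** (from the formula on divisors). -/
theorem csMap_csNorm_of [IsGalois K L] (hdiv : StmtDivGal S K L) (c : CS S L) :
    csMap S K L (csNorm S K L c) = ∑ σ : L ≃ₐ[K] L, csEnd S (σ.restrictScalars ℚ) c := by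
  induction c using Submodule.Quotient.induction_on with
  | _ y =>
    show csMk S L (jdMap S K L (jdNorm S K L y)) =
      ∑ σ : L ≃ₐ[K] L, csMk S L (jdEnd S (σ.restrictScalars ℚ) y)
    rw [jdMap_jdNorm S K L hdiv, map_sum]

end Fermat.Agent.PT.G
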