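import Fermat.Agent.PT.G.NormGal
import Fermat.Agent.PT.G.NormDivGal

/-!
# Project PT — shared model, piece **Defs-norm**, final wiring

`csMap_csNorm`: for `L / K` Galois, `csMap (csNorm c) = ∑_{σ ∈ Gal(L/K)} σ c` on `C_S(L)`,
unconditionally (`csMap_csNorm_of` + helper6's `divMap_divNorm`).
-/

set_option autoImplicit false
set_option linter.unusedSectionVars false

namespace Fermat.Agent.PT.G

open NumberField IsDedekindDomain Fermat.Agent.PT.G1 Fermat.Agent.PT.X

variable (S : Finset Nat.Primes) (K L : Type) [Field K] [NumberField K] [Field L] [NumberField L]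
  [Algebra K L]

/-- The Galois formula on divisors holds (piece Norm-divgal, `divMap_divNorm`). -/
theorem stmtDivGal [IsGalois K L] : StmtDivGal S K L :=
  fun d => divMap_divNorm S K L d

/-- **`csMap ∘ csNorm = ∑_{σ ∈ Gal(L/K)} σ`** on `C_S(L)`, for `L / K` Galois. -/
theorem csMap_csNorm [IsGalois K L] (c : CS S L) :
    csMap S K L (csNorm S K L c) = ∑ σ : L ≃ₐ[K] L, csEnd S (σ.restrictScalars ℚ) c :=
  csMap_csNorm_of S K L (stmtDivGal S K L) c

end Fermat.Agent.PT.G
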