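/-
Project PT — shared model, general form of **D-split** (helper26, requested by helper56): for ANY
finite Galois extension `L / K` of number fields, unramified outside `S`, and a prime `v` of `K`
off `S` with a prime `w` of degree one above it:
`[v] = Σ_{τ ∈ Gal(L/K)} τ [w]` in `Div_S(L)` (`sn_split_galois`).
-/
import Fermat.Agent.PT.G.SplitNorm

set_option autoImplicit false
set_option linter.unusedSectionVars false
set_option linter.style.haveILetI false

namespace Fermat.Agent.PT.G

open NumberField IsDedekindDomain Fermat.Agent.PT.G1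

open scoped Pointwise

variable (S : Finset Nat.Primes) {K L : Type} [Field K] [NumberField K] [Field L] [NumberField L]
  [Algebra K L] [IsGalois K L]

/-- **D-split for an arbitrary Galois extension**: only `e(w | v) = 1` and `f(w | v) = 1` are
used. -/
theorem sn_split_galois_of_ramIdx (v : OffS S K) (w : OffS S L) (he : ∀ P : OffS S L,
    offUnder S K P = v → ramIdx K P.1 = 1) (hwv : offUnder S K w = v)
    (hnorm : Ideal.absNorm w.1.asIdeal = Ideal.absNorm v.1.asIdeal) :
    divMap S K L (Finsupp.single v 1) =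
      ∑ τ : L ≃ₐ[K] L, divEnd S (galToAut τ) (Finsupp.single w 1) := by
  classical
  -- the stabiliser of `w` is trivial
  have hstab : Nat.card (MulAction.stabilizer (L ≃ₐ[K] L) w.1.asIdeal) = 1 := by
    apply sn_card_stabilizer (K := K) w.1 (he w hwv)
    rw [hnorm, ← hwv]
    rfl
  have hstab' : ∀ τ : L ≃ₐ[K] L, τ • w.1.asIdeal = w.1.asIdeal → τ = 1 := by
    intro τ hτ
    have h1 : MulAction.stabilizer (L ≃ₐ[K] L) w.1.asIdeal = ⊥ := Subgroup.card_eq_one.mp hstab
    have h2 : τ ∈ MulAction.stabilizer (L ≃ₐ[K] L) w.1.asIdeal :=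
      MulAction.mem_stabilizer_iff.mpr hτ
    rw [h1, Subgroup.mem_bot] at h2
    exact h2
  ext P
  rw [divMap_apply, Finsupp.coe_finsetSum, Finset.sum_apply]
  simp only [sn_divEnd_single, Finsupp.single_apply]
  have hkey : ∀ τ : L ≃ₐ[K] L,
      offEquiv S (galToAut τ) w = P ↔ τ • w.1.asIdeal = P.1.asIdeal := by
    intro τ
    rw [← sn_primeMap_eq_smul]
    constructor
    · intro h
      rw [← h]
      rfl
    · intro h
      exact Subtype.ext (HeightOneSpectrum.ext h)
  by_cases hPv : offUnder S K P = v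
  · rw [if_pos hPv.symm, he P hPv, Nat.cast_one, one_mul]
    haveI : P.1.asIdeal.IsPrime := P.1.isPrime
    haveI : w.1.asIdeal.IsPrime := w.1.isPrime
    haveI : v.1.asIdeal.IsPrime := v.1.isPrime
    haveI : P.1.asIdeal.LiesOver v.1.asIdeal := by
      rw [← hPv]; exact primeUnder_liesOver K P.1
    haveI : w.1.asIdeal.LiesOver v.1.asIdeal := by
      rw [← hwv]; exact primeUnder_liesOver K w.1
    obtain ⟨τ₀, hτ₀⟩ := Ideal.exists_smul_eq_of_isGaloisGroup v.1.asIdeal w.1.asIdeal P.1.asIdeal
      (L ≃ₐ[K] L)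
    rw [Finset.sum_eq_single τ₀]
    · rw [if_pos ((hkey τ₀).mpr hτ₀)]
    · intro τ _ hne
      rw [if_neg]
      intro h
      apply hne
      have h1 : τ • w.1.asIdeal = τ₀ • w.1.asIdeal := by rw [(hkey τ).mp h, hτ₀]
      have h2 : τ₀⁻¹ * τ = 1 := by
        apply hstab'
        rw [mul_smul, h1, inv_smul_smul]
      rw [inv_mul_eq_one] at h2
      exact h2.symm
    · intro h
      exact absurd (Finset.mem_univ τ₀) h
  · rw [if_neg (fun h => hPv h.symm), mul_zero]
    symm
    apply Finset.sum_eq_zero
    intro τ _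
    rw [if_neg]
    intro h
    apply hPv
    rw [← h, offUnder_offEquiv S (sn_restricts (galToAut τ) (galToAut_fixes τ)), offEquiv_one, hwv]
    rfl

/-- **D-split for an arbitrary Galois extension**, unramified outside `S`. -/
theorem sn_split_galois (hun : UnramOffRel S K L) (v : OffS S K) (w : OffS S L)
    (hwv : offUnder S K w = v)
    (hnorm : Ideal.absNorm w.1.asIdeal = Ideal.absNorm v.1.asIdeal) :
    divMap S K L (Finsupp.single v 1) =
      ∑ τ : L ≃ₐ[K] L, divEnd S (galToAut τ) (Finsupp.single w 1) :=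
  sn_split_galois_of_ramIdx S v w (fun P _ => hun P) hwv hnorm

end Fermat.Agent.PT.G
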